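import Fermat.Agent.CarmichaelNumbers.Progressions
import Fermat.Agent.PrimesMinusOne.BrunTitchmarsh

/-!
# Many primes `d k + 1` with `d` dividing a product with smooth `q - 1`

For large `Z` and `j ≤ Z ^ (1 - E/2)` there are a set `Q` of primes of `(Z, 2 Z]` with `q - 1` having
no prime factor `> Z ^ (1 - E)`, a `k` prime to `L = ∏ Q` and at least `Z ^ (E j / 8)` primes
`p ≤ exp (3 j log Z / B)` with `k ∣ p - 1 ∣ k L` (the theorem of Prachar, as in Alford, Granville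
and Pomerance). The products `d` have `j` factors; the `p` with `(p - 1) / d` not prime to `L` are
few by Brun and Titchmarsh.
-/

set_option autoImplicit false

noncomputable section

open Finset Filter
open scoped Classical

namespace FA.CarmichaelNumbers

/-- What is found at the level `Z`. -/
def ManyPrimesAt (Z : ℕ) (E B : ℝ) (j : ℕ) : Prop :=
  ∃ (Q T : Finset ℕ) (k X : ℕ), 0 < k ∧ 1 ≤ X ∧ (Real.log (2 * X) ≤ 3 / B * (j * Real.log Z)) ∧
    #Q ≤ Z ∧ (∀ q ∈ Q, q.Prime ∧ Z < q ∧ q ≤ 2 * Z ∧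
      ∀ r : ℕ, r.Prime → r ∣ q - 1 → (r : ℝ) ≤ (Z : ℝ) ^ (1 - E)) ∧
    k.Coprime (∏ q ∈ Q, q) ∧
    (∀ p ∈ T, p.Prime ∧ p ≤ 2 * X ∧ (∀ q ∈ Q, q < p) ∧ k ∣ p - 1 ∧ p - 1 ∣ k * ∏ q ∈ Q, q) ∧
    (Z : ℝ) ^ (E / 8 * j) ≤ #T

/-- The primes `p ≡ 1` modulo `d` with `(p - 1) / d` prime to every `q ∈ Q`. -/
def cleanPrimes (X d : ℕ) (Q : Finset ℕ) : Finset ℕ :=
  (classPrimes X d).filter fun p => ∀ q ∈ Q, ¬ q ∣ (p - 1) / d

theorem card_cleanPrimes_ge {X Z d : ℕ} {Q : Finset ℕ} {B : ℝ} (hB : B ≤ 1 / 16)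
    (hX : 2 ≤ X) (hd : 0 < d) (hdX : (d : ℝ) ≤ (X : ℝ) ^ B) (hZX : 2 * (Z : ℝ) ≤ (X : ℝ) ^ B)
    (hQ : ∀ q ∈ Q, q.Prime ∧ Z < q ∧ q ≤ 2 * Z) (hZ : 0 < Z) (hQcard : 512 * (#Q : ℝ) ≤ Z)
    (h : (X : ℝ) / (2 * d.totient * Real.log (2 * X)) ≤ #(classPrimes X d)) :
    (X : ℝ) / (8 * d * Real.log X) ≤ #(cleanPrimes X d Q) := by
  have hX0 : (0 : ℝ) < X := Nat.cast_pos.2 (by omega)
  have hX1 : (1 : ℝ) < X := Nat.one_lt_cast.2 (by omega)
  have hl : 0 < Real.log X := Real.log_pos hX1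
  have hφ : (0 : ℝ) < d.totient := Nat.cast_pos.2 (Nat.totient_pos.2 hd)
  have hbad : ∀ q ∈ Q, (#(classPrimes X (d * q)) : ℝ) ≤ 64 * X / (d.totient * Z * Real.log X) := by
    intro q hq
    obtain ⟨hqp, hqZ, hq2⟩ := hQ q hq
    have hdq0 : 0 < d * q := Nat.mul_pos hd hqp.pos
    have hdq : ((d * q : ℕ) : ℝ) ≤ (X : ℝ) ^ (1 / 8 : ℝ) := by
      rw [Nat.cast_mul]
      refine (mul_le_mul hdX ((show (q : ℝ) ≤ 2 * Z by exact_mod_cast hq2).trans hZX)
        (Nat.cast_nonneg q) (by positivity)).trans ?_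
      rw [← Real.rpow_add hX0]
      exact Real.rpow_le_rpow_of_exponent_le hX1.le (by linarith)
    have hlt : d * q < 2 * X := by
      have h1 : (X : ℝ) ^ (1 / 8 : ℝ) ≤ X := by
        conv_rhs => rw [← Real.rpow_one (X : ℝ)]
        exact Real.rpow_le_rpow_of_exponent_le hX1.le (by norm_num)
      exact_mod_cast (show ((d * q : ℕ) : ℝ) < ((2 * X : ℕ) : ℝ) by push_cast at hdq ⊢; linarith)
    have hbt := PrimesMinusOne.brunTitchmarsh (N := 2 * X) (q := d * q) (a := 1) hdq0 hlt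
    refine (Nat.cast_le.2 (card_le_card fun p hp => ?_)).trans (hbt.trans ?_)
    · rw [classPrimes, mem_filter, mem_Ioc] at hp
      exact mem_filter.2 ⟨mem_Icc.2 ⟨by omega, hp.1.2⟩, hp.2⟩
    have hlog : 3 / 4 * Real.log X ≤ Real.log (((2 * X : ℕ) : ℝ) / ((d * q : ℕ) : ℝ)) := by
      rw [Real.log_div (Nat.cast_ne_zero.2 (by omega)) (Nat.cast_ne_zero.2 hdq0.ne'),
        Nat.cast_mul 2 X, Nat.cast_ofNat, Real.log_mul two_ne_zero hX0.ne']
      have h1 := Real.log_le_log (Nat.cast_pos.2 hdq0) hdq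
      rw [Real.log_rpow hX0] at h1
      linarith [Real.log_two_gt_d9]
    have hphi : (d.totient : ℝ) * Z ≤ ((d * q).totient : ℕ) := by
      have h1 := Nat.totient_super_multiplicative d q
      rw [Nat.totient_prime hqp] at h1
      exact_mod_cast (Nat.mul_le_mul_left _ (show Z ≤ q - 1 by omega)).trans h1
    refine (div_le_div_of_nonneg_left (by positivity) (mul_pos (mul_pos hφ (Nat.cast_pos.2 hZ))
      (show 0 < 3 / 4 * Real.log (X : ℝ) by linarith))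
      (mul_le_mul hphi hlog (by linarith) (Nat.cast_nonneg _))).trans (le_of_eq ?_)
    push_cast
    field_simp
    ring
  have hsub : classPrimes X d ⊆ cleanPrimes X d Q ∪ Q.biUnion fun q => classPrimes X (d * q) := by
    intro p hp
    by_cases hc : ∀ q ∈ Q, ¬ q ∣ (p - 1) / d
    · exact mem_union_left _ (mem_filter.2 ⟨hp, hc⟩)
    · push Not at hc
      obtain ⟨q, hq, hqd⟩ := hc
      rw [classPrimes, mem_filter] at hp
      refine mem_union_right _ (mem_biUnion.2 ⟨q, hq, mem_filter.2 ⟨hp.1, hp.2.1, ?_⟩⟩)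
      have hdvd : d ∣ p - 1 := (Nat.modEq_iff_dvd' hp.2.1.one_le).1 hp.2.2.symm
      exact ((Nat.modEq_iff_dvd' hp.2.1.one_le).2 ((Nat.dvd_div_iff_mul_dvd hdvd).1 hqd)).symm
  have h1 : (#(classPrimes X d) : ℝ) ≤ #(cleanPrimes X d Q) +
      ∑ q ∈ Q, (#(classPrimes X (d * q)) : ℝ) := by
    have h := (card_le_card hsub).trans ((card_union_le _ _).trans
      (Nat.add_le_add_left card_biUnion_le _))
    exact_mod_cast h
  have h2 : ∑ q ∈ Q, (#(classPrimes X (d * q)) : ℝ) ≤ X / (8 * d.totient * Real.log X) := by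
    refine (sum_le_card_nsmul _ _ _ hbad).trans ?_
    rw [nsmul_eq_mul, mul_div_assoc', div_le_div_iff₀ (by positivity) (by positivity)]
    have := mul_le_mul_of_nonneg_left hQcard
      (show 0 ≤ (X : ℝ) * d.totient * Real.log X by positivity)
    linarith
  have h3 : (X : ℝ) / (4 * d.totient * Real.log X) ≤ #(classPrimes X d) := by
    refine le_trans (div_le_div_of_nonneg_left hX0.le
      (mul_pos (by positivity) (Real.log_pos (by linarith))) ?_) h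
    rw [Real.log_mul two_ne_zero hX0.ne']
    have h4 : Real.log 2 ≤ Real.log X :=
      Real.log_le_log two_pos (by exact_mod_cast hX)
    have := mul_le_mul_of_nonneg_left h4 (show (0 : ℝ) ≤ 2 * d.totient by positivity)
    linarith
  have e : (X : ℝ) / (4 * d.totient * Real.log X) =
      2 * ((X : ℝ) / (8 * d.totient * Real.log X)) := by ring
  refine le_trans (div_le_div_of_nonneg_left hX0.le (by positivity) ?_)
    (show (X : ℝ) / (8 * d.totient * Real.log X) ≤ #(cleanPrimes X d Q) by linarith)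
  exact mul_le_mul_of_nonneg_right
    (mul_le_mul_of_nonneg_left (Nat.cast_le.2 (Nat.totient_le d)) (by norm_num)) hl.le

/-- `∏` of a subset of a set of primes determines it. -/
theorem primeFactors_prod_subset {Q U : Finset ℕ} (hQ : ∀ q ∈ Q, q.Prime) (hU : U ⊆ Q) :
    (∏ q ∈ U, q).primeFactors = U := Nat.primeFactors_prod fun q hq => hQ q (hU hq)

/-- `C (n, j) ≥ ((n + 1 - j) / j) ^ j`. -/
theorem pow_div_le_choose (n j : ℕ) : (((n + 1 - j : ℕ) : ℝ) / j) ^ j ≤ (n.choose j : ℝ) := by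
  refine le_trans ?_ (Nat.pow_le_choose (α := ℝ) j n)
  rw [div_pow]
  refine div_le_div_of_nonneg_left (by positivity) (Nat.cast_pos.2 j.factorial_pos) ?_
  exact_mod_cast j.factorial_le_pow

/-- **Many primes.** -/
theorem exists_manyPrimesAt : ∃ E B : ℝ, 0 < E ∧ E ≤ 1 / 4 ∧ 0 < B ∧ B ≤ 1 / 16 ∧
    ∀ᶠ Z : ℕ in atTop, ∀ j : ℕ, 0 < j → (j : ℝ) ≤ (Z : ℝ) ^ (1 - E / 2) →
      ManyPrimesAt Z E B j := by
  obtain ⟨E, c, hE, hE4, hc, hsm⟩ := exists_smoothPrimes_ge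
  obtain ⟨B, hB0, hB16, hcl⟩ := exists_classPrimes_ge
  obtain ⟨X₀, hX₀⟩ := eventually_atTop.1 hcl
  refine ⟨E, B, hE, hE4, hB0, hB16, ?_⟩
  have hE4' : 0 < E / 4 := by linarith
  filter_upwards [hsm, BombieriVinogradov.eventually_log_ge (max 32 (1 / c)),
    BombieriVinogradov.eventually_log_pow_le 3 hE4',
    eventually_pow_log_le (96 / B) (E / 8) (by linarith),
    eventually_ge_atTop X₀, eventually_ge_atTop 4] with Z hsmZ hlZ hl3 hlw hZX₀ hZ4 j hj hjZ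
  obtain ⟨l, hl⟩ : ∃ l, l = Real.log Z := ⟨_, rfl⟩
  rw [← hl] at hlZ hl3 hlw hsmZ
  have hl32 : 32 ≤ l := le_of_max_le_left hlZ
  have hZ0 : (0 : ℝ) < Z := Nat.cast_pos.2 (by omega)
  have hZ1 : (1 : ℝ) ≤ Z := Nat.one_le_cast.2 (by omega)
  -- the primes `q`
  obtain ⟨N, hN⟩ : ∃ N, N = ⌊(Z : ℝ) / l ^ 2⌋₊ := ⟨_, rfl⟩
  have hNle : (N : ℝ) ≤ (Z : ℝ) / l ^ 2 := hN ▸ Nat.floor_le (by positivity)
  have hNcard : N ≤ #(smoothPrimes Z ((Z : ℝ) ^ (1 - E))) := by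
    have h1 : (N : ℝ) ≤ #(smoothPrimes Z ((Z : ℝ) ^ (1 - E))) := by
      refine hNle.trans (le_trans ?_ hsmZ)
      have h2 := le_of_max_le_right hlZ
      rw [div_le_iff₀ hc] at h2
      rw [div_le_div_iff₀ (by positivity) (by linarith)]
      have := mul_le_mul_of_nonneg_left h2 (show 0 ≤ (Z : ℝ) * l by positivity)
      rw [sq]
      linarith
    exact_mod_cast h1
  obtain ⟨Q₀, hQ₀, hQ₀card⟩ := exists_subset_card_eq hNcard
  have hQ₀mem : ∀ q ∈ Q₀, q.Prime ∧ Z < q ∧ q ≤ 2 * Z ∧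
      ∀ r : ℕ, r.Prime → r ∣ q - 1 → (r : ℝ) ≤ (Z : ℝ) ^ (1 - E) := fun q hq => by
    have h := hQ₀ hq
    rw [smoothPrimes, mem_filter, mem_Ioc] at h
    exact ⟨h.2.1, h.1.1, h.1.2, h.2.2⟩
  -- the level `X`
  obtain ⟨X, hX⟩ : ∃ X, X = ⌈((2 * Z : ℝ) ^ j) ^ (1 / B)⌉₊ := ⟨_, rfl⟩
  have hbase : (1 : ℝ) ≤ (2 * Z : ℝ) ^ j := one_le_pow₀ (by linarith)
  have hXge : ((2 * Z : ℝ) ^ j) ^ (1 / B) ≤ X := hX ▸ Nat.le_ceil _
  have hBinv : 1 ≤ 1 / B := by rw [le_div_iff₀ hB0]; linarith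
  have h2ZX : 2 * (Z : ℝ) ≤ (2 * Z : ℝ) ^ j := le_self_pow₀ (by linarith) hj.ne'
  have hXZ : 2 * (Z : ℝ) ≤ X := by
    refine le_trans (h2ZX.trans ?_) hXge
    exact Real.self_le_rpow_of_one_le hbase hBinv
  have hX2 : 2 ≤ X := by exact_mod_cast (show (2 : ℝ) ≤ X by linarith)
  have hZX : Z ≤ X := by exact_mod_cast (show (Z : ℝ) ≤ X by linarith)
  have hXB : (2 * Z : ℝ) ^ j ≤ (X : ℝ) ^ B := by
    refine le_trans (le_of_eq ?_) (Real.rpow_le_rpow (by positivity) hXge hB0.le)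
    rw [← Real.rpow_mul (by positivity), one_div, inv_mul_cancel₀ hB0.ne', Real.rpow_one]
  have hj1 : (1 : ℝ) ≤ j := Nat.one_le_cast.2 hj
  have hlogX : Real.log (2 * X) ≤ 3 / B * (j * l) := by
    have h1 : (X : ℝ) ≤ 2 * ((2 * Z : ℝ) ^ j) ^ (1 / B) := by
      rw [hX]
      refine (Nat.ceil_lt_add_one (by positivity)).le.trans ?_
      linarith [Real.one_le_rpow hbase (show (0 : ℝ) ≤ 1 / B by positivity)]
    refine (Real.log_le_log (by positivity) (mul_le_mul_of_nonneg_left h1 zero_le_two)).trans ?_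
    rw [← mul_assoc, Real.log_mul (by norm_num) (by positivity), Real.log_rpow (by positivity),
      Real.log_pow, Real.log_mul two_ne_zero hZ0.ne', ← hl, show (2 : ℝ) * 2 = 2 ^ 2 by norm_num,
      Real.log_pow]
    have h2 := Real.log_two_lt_d9
    have h3 : 1 * 32 ≤ (j : ℝ) * l := mul_le_mul hj1 hl32 (by norm_num) (by linarith)
    have h4 : (j : ℝ) * (Real.log 2 + l) ≤ 2 * (j * l) := by
      nlinarith
    have h5 : 2 * Real.log 2 ≤ 1 / B * (j * l) := by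
      have := mul_le_mul_of_nonneg_right hBinv (show 0 ≤ (j : ℝ) * l by positivity)
      linarith
    have h6 := mul_le_mul_of_nonneg_left h4 (show (0 : ℝ) ≤ 1 / B by positivity)
    push_cast
    rw [show (3 : ℝ) / B * (j * l) = 1 / B * (2 * (j * l)) + 1 / B * (j * l) by ring]
    linarith
  -- the exceptional modulus
  obtain ⟨D, hD, hclass⟩ := hX₀ X (hZX₀.trans hZX)
  obtain ⟨Q, hQ⟩ : ∃ Q, Q = Q₀.erase D.minFac := ⟨_, rfl⟩
  have hQmem : ∀ q ∈ Q, q.Prime ∧ Z < q ∧ q ≤ 2 * Z ∧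
      ∀ r : ℕ, r.Prime → r ∣ q - 1 → (r : ℝ) ≤ (Z : ℝ) ^ (1 - E) :=
    fun q hq => hQ₀mem q (mem_of_mem_erase (hQ ▸ hq))
  have hQprime : ∀ q ∈ Q, q.Prime := fun q hq => (hQmem q hq).1
  have hQN : #Q ≤ N := hQ₀card ▸ hQ ▸ card_erase_le
  have hQN' : N ≤ #Q + 1 := by
    rw [hQ, ← hQ₀card]
    exact Nat.sub_le_iff_le_add.1 pred_card_le_card_erase
  have hNZ : 512 * (#Q : ℝ) ≤ Z := by
    refine (mul_le_mul_of_nonneg_left ((Nat.cast_le.2 hQN).trans hNle) (by norm_num)).trans ?_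
    rw [mul_div_assoc', div_le_iff₀ (by positivity)]
    have h1 : (512 : ℝ) ≤ l ^ 2 := le_trans (by norm_num) (pow_le_pow_left₀ (by norm_num) hl32 2)
    have := mul_le_mul_of_nonneg_left h1 hZ0.le
    linarith
  -- each product
  have hper : ∀ U ∈ Q.powersetCard j, (Z : ℝ) ^ j ≤ (∏ q ∈ U, q : ℕ) ∧
      (X : ℝ) / (8 * (2 * Z : ℝ) ^ j * Real.log X) ≤ #(cleanPrimes X (∏ q ∈ U, q) Q) := by
    intro U hU
    rw [mem_powersetCard] at hU
    obtain ⟨d, hd⟩ : ∃ d, d = ∏ q ∈ U, q := ⟨_, rfl⟩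
    rw [← hd]
    have hd0 : 0 < d := hd ▸ prod_pos fun q hq => (hQprime q (hU.1 hq)).pos
    have hdle : (d : ℝ) ≤ (2 * Z : ℝ) ^ j := by
      rw [hd, ← hU.2, ← prod_const, Nat.cast_prod]
      exact prod_le_prod (fun q _ => Nat.cast_nonneg q)
        fun q hq => by exact_mod_cast (hQmem q (hU.1 hq)).2.2.1
    refine ⟨?_, ?_⟩
    · rw [hd, ← hU.2, ← prod_const, Nat.cast_prod]
      exact prod_le_prod (fun q _ => hZ0.le)
        fun q hq => Nat.cast_le.2 (hQmem q (hU.1 hq)).2.1.le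
    have hnd : ¬ D ∣ d := fun h => by
      have h1 : D.minFac ∈ d.primeFactors :=
        Nat.mem_primeFactors.2 ⟨Nat.minFac_prime (by omega), (Nat.minFac_dvd D).trans h, hd0.ne'⟩
      rw [hd, primeFactors_prod_subset hQprime hU.1] at h1
      have h2 := hU.1 h1
      rw [hQ, mem_erase] at h2
      exact h2.1 rfl
    refine le_trans ?_ (card_cleanPrimes_ge (Z := Z) hB16 hX2 hd0 (hdle.trans hXB)
      (h2ZX.trans hXB) (fun q hq => ⟨(hQmem q hq).1, (hQmem q hq).2.1, (hQmem q hq).2.2.1⟩)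
      (by omega) hNZ (hclass d hd0 (hdle.trans hXB) hnd))
    refine div_le_div_of_nonneg_left (Nat.cast_nonneg X) (mul_pos (by positivity)
      (Real.log_pos (by exact_mod_cast hX2))) (mul_le_mul_of_nonneg_right
      (mul_le_mul_of_nonneg_left hdle (by norm_num)) (Real.log_natCast_nonneg X))
  obtain ⟨P, hP⟩ : ∃ P : Finset ((_ : Finset ℕ) × ℕ),
      P = (Q.powersetCard j).sigma fun U => cleanPrimes X (∏ q ∈ U, q) Q := ⟨_, rfl⟩
  have hPmem : ∀ u ∈ P, u.1 ⊆ Q ∧ #u.1 = j ∧ u.2.Prime ∧ X < u.2 ∧ u.2 ≤ 2 * X ∧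
      (∏ q ∈ u.1, q) ∣ u.2 - 1 ∧ ∀ q ∈ Q, ¬ q ∣ (u.2 - 1) / ∏ q ∈ u.1, q := fun u hu => by
    rw [hP, mem_sigma, mem_powersetCard, cleanPrimes, classPrimes, mem_filter, mem_filter,
      mem_Ioc] at hu
    exact ⟨hu.1.1, hu.1.2, hu.2.1.2.1, hu.2.1.1.1, hu.2.1.1.2,
      (Nat.modEq_iff_dvd' hu.2.1.2.1.one_le).1 hu.2.1.2.2.symm, hu.2.2⟩
  obtain ⟨κ, hκ⟩ : ∃ κ : ((_ : Finset ℕ) × ℕ) → ℕ,
      κ = fun u => (u.2 - 1) / ∏ q ∈ u.1, q := ⟨_, rfl⟩
  obtain ⟨Km, hKm⟩ : ∃ Km, Km = ⌊2 * (X : ℝ) / (Z : ℝ) ^ j⌋₊ := ⟨_, rfl⟩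
  have hmaps : ∀ u ∈ P, κ u ∈ Icc 1 Km := fun u hu => by
    obtain ⟨h1, h2, hp, hXp, hp2, hdvd, -⟩ := hPmem u hu
    have hd0 : 0 < ∏ q ∈ u.1, q := prod_pos fun q hq => (hQprime q (h1 hq)).pos
    have hZd := (hper u.1 (mem_powersetCard.2 ⟨h1, h2⟩)).1
    rw [hκ, mem_Icc]
    refine ⟨Nat.div_pos (Nat.le_of_dvd (by omega) hdvd) hd0, hKm ▸ Nat.le_floor ?_⟩
    refine (Nat.cast_div_le (α := ℝ)).trans (div_le_div₀ (by positivity) ?_ (by positivity) hZd)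
    exact_mod_cast (show u.2 - 1 ≤ 2 * X by omega)
  have hPcard : (#Q).choose j * ((X : ℝ) / (8 * (2 * Z : ℝ) ^ j * Real.log X)) ≤ #P := by
    rw [hP, card_sigma, ← card_powersetCard, Nat.cast_sum]
    refine le_of_eq_of_le ?_ (sum_le_sum fun U hU => (hper U hU).2)
    rw [sum_const, nsmul_eq_mul]
  have hlX0 : 0 < Real.log X := Real.log_pos (by exact_mod_cast hX2)
  -- the size
  have hchoose : ((Z : ℝ) ^ (E / 4)) ^ j * 2 ^ j ≤ ((#Q).choose j : ℝ) := by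
    refine le_trans ?_ (pow_div_le_choose _ j)
    rw [← mul_pow]
    refine pow_le_pow_left₀ (by positivity) ?_ j
    rw [le_div_iff₀ (by linarith)]
    have hN2 : (Z : ℝ) / l ^ 2 - 1 ≤ N := by
      rw [hN]
      linarith [Nat.lt_floor_add_one ((Z : ℝ) / l ^ 2)]
    have h1 : (N : ℝ) - j ≤ ((#Q + 1 - j : ℕ) : ℝ) := by
      have h2 : (N : ℝ) ≤ ((#Q + 1 - j : ℕ) : ℝ) + j := by
        exact_mod_cast (show N ≤ #Q + 1 - j + j by omega)
      linarith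
    obtain ⟨w, hw⟩ : ∃ w, w = (Z : ℝ) ^ (E / 4) := ⟨_, rfl⟩
    rw [← hw] at hl3 ⊢
    have hw0 : 0 ≤ w := hw ▸ by positivity
    have hjw : (j : ℝ) * (w * w) ≤ Z := by
      refine (mul_le_mul_of_nonneg_right hjZ (mul_nonneg hw0 hw0)).trans (le_of_eq ?_)
      rw [hw, ← Real.rpow_add hZ0, ← Real.rpow_add hZ0]
      conv_rhs => rw [← Real.rpow_one (Z : ℝ)]
      congr 1
      ring
    have hl2 : 32 * l ^ 2 ≤ w := by
      have := mul_le_mul_of_nonneg_right hl32 (sq_nonneg l)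
      rw [pow_succ'] at hl3
      linarith
    have h32 : 32 * (2 * w * j) ≤ 2 * ((Z : ℝ) / l ^ 2) := by
      rw [mul_div_assoc', le_div_iff₀ (by positivity)]
      have h3 := mul_le_mul_of_nonneg_left hl2 (show 0 ≤ w * (j : ℝ) by positivity)
      linarith
    have h11 : (1 : ℝ) ≤ w := hw ▸ Real.one_le_rpow hZ1 hE4'.le
    have h12 := mul_le_mul h11 hj1 zero_le_one hw0
    have h13 := mul_le_mul_of_nonneg_right h11 (show (0 : ℝ) ≤ j by linarith)
    linarith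
  have hsize : ((Z : ℝ) ^ (E / 4)) ^ j / (16 * Real.log X) * Km ≤ #P := by
    refine le_trans ?_ ((mul_le_mul_of_nonneg_right hchoose (by positivity)).trans hPcard)
    refine (mul_le_mul_of_nonneg_left (hKm ▸ Nat.floor_le (by positivity)) (by positivity)).trans
      (le_of_eq ?_)
    rw [mul_pow]
    field_simp
    ring
  have hw2 : (Z : ℝ) ^ (E / 8 * j) * (16 * Real.log X) ≤ ((Z : ℝ) ^ (E / 4)) ^ j := by
    obtain ⟨w, hw⟩ : ∃ w, w = (Z : ℝ) ^ (E / 8) := ⟨_, rfl⟩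
    rw [← hw] at hlw
    have e1 : (Z : ℝ) ^ (E / 8 * j) = w ^ j := by
      rw [hw, ← Real.rpow_natCast, ← Real.rpow_mul hZ0.le]
    have e2 : ((Z : ℝ) ^ (E / 4)) ^ j = w ^ j * w ^ j := by
      rw [← mul_pow, hw, ← Real.rpow_add hZ0]
      ring_nf
    rw [e1, e2]
    refine mul_le_mul_of_nonneg_left ?_ (pow_nonneg (hw ▸ by positivity) j)
    have h1 : Real.log X ≤ 3 / B * (j * l) :=
      (Real.log_le_log (by linarith) (by linarith [show (0 : ℝ) ≤ X from Nat.cast_nonneg X])).trans hlogX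
    have h96 : 96 * 32 ≤ 96 / B * l := by
      have h0 : (96 : ℝ) ≤ 96 / B := by rw [le_div_iff₀ hB0]; linarith
      exact mul_le_mul h0 hl32 (by norm_num) (by linarith)
    have hw96 : 96 * 32 ≤ w := h96.trans hlw
    have h2 : w * (j : ℝ) ≤ 2 * w ^ j := by
      have hB1 : 1 + (j : ℝ) * (w / 2) ≤ (1 + w / 2) ^ j :=
        one_add_mul_le_pow (by linarith) j
      have h3 := pow_le_pow_left₀ (show (0 : ℝ) ≤ 1 + w / 2 by linarith)
        (show 1 + w / 2 ≤ w by linarith) j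
      linarith
    have h4 := mul_le_mul_of_nonneg_right hlw (show (0 : ℝ) ≤ j by linarith)
    have h5 : 16 * (3 / B * (j * l)) = 96 / B * l * j / 2 := by ring
    linarith
  have hKmpos : 0 < Km := by
    rw [hKm]
    refine Nat.floor_pos.2 ?_
    rw [le_div_iff₀ (by positivity), one_mul]
    refine (pow_le_pow_left₀ hZ0.le (show (Z : ℝ) ≤ 2 * Z by linarith) j).trans (hXB.trans ?_)
    refine le_trans ?_ (show (X : ℝ) ≤ 2 * X by linarith [show (0 : ℝ) ≤ X from Nat.cast_nonneg X])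
    conv_rhs => rw [← Real.rpow_one (X : ℝ)]
    exact Real.rpow_le_rpow_of_exponent_le (by exact_mod_cast (show 1 ≤ X by omega)) (by linarith)
  obtain ⟨k, hk, hkmax⟩ := exists_max_image (Icc 1 Km) (fun k => #(P.filter fun u => κ u = k))
    ⟨1, mem_Icc.2 ⟨le_rfl, hKmpos⟩⟩
  have hfib : (#P : ℝ) ≤ Km * (#(P.filter fun u => κ u = k) : ℝ) := by
    have h1 : #P ≤ Km * #(P.filter fun u => κ u = k) := by
      rw [card_eq_sum_card_fiberwise hmaps]
      refine (sum_le_card_nsmul _ _ _ hkmax).trans (le_of_eq ?_)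
      rw [Nat.card_Icc, smul_eq_mul, Nat.add_sub_cancel]
    exact_mod_cast h1
  have hf : ((Z : ℝ) ^ (E / 4)) ^ j / (16 * Real.log X) ≤
      #(P.filter fun u => κ u = k) := by
    refine le_of_mul_le_mul_right ((hsize.trans hfib).trans (le_of_eq (mul_comm _ _)))
      (Nat.cast_pos.2 hKmpos)
  have hfin : (Z : ℝ) ^ (E / 8 * j) ≤ #(P.filter fun u => κ u = k) := by
    refine le_trans ?_ hf
    rw [le_div_iff₀ (by positivity)]
    exact hw2
  obtain ⟨u₀, hu₀⟩ : (P.filter fun u => κ u = k).Nonempty := card_pos.1 (Nat.cast_pos.1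
    ((Real.rpow_pos_of_pos hZ0 _).trans_le hfin))
  rw [mem_filter] at hu₀
  have hkQ : k.Coprime (∏ q ∈ Q, q) := Nat.Coprime.prod_right fun q hq => by
    rw [Nat.coprime_comm, (hQprime q hq).coprime_iff_not_dvd, ← hu₀.2, hκ]
    exact (hPmem u₀ hu₀.1).2.2.2.2.2.2 q hq
  refine ⟨Q, (P.filter fun u => κ u = k).image (·.2), k, X, (mem_Icc.1 hk).1, by omega,
    hl ▸ hlogX, ?_, hQmem, hkQ, fun p hp => ?_, ?_⟩
  · have h1 : (#Q : ℝ) ≤ Z := by linarith [show (0 : ℝ) ≤ #Q from Nat.cast_nonneg _]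
    exact_mod_cast h1
  · obtain ⟨u, hu, rfl⟩ := mem_image.1 hp
    rw [mem_filter] at hu
    obtain ⟨h1, -, hp', hXp, hp2, hdvd, -⟩ := hPmem u hu.1
    refine ⟨hp', hp2, fun q hq => ?_, ?_, ?_⟩
    · refine lt_of_le_of_lt (le_trans (hQmem q hq).2.2.1 ?_) hXp
      exact_mod_cast (show ((2 * Z : ℕ) : ℝ) ≤ X by push_cast; linarith)
    · rw [← hu.2, hκ]
      exact Nat.div_dvd_of_dvd hdvd
    · rw [← hu.2, hκ]
      calc u.2 - 1 = (u.2 - 1) / (∏ q ∈ u.1, q) * ∏ q ∈ u.1, q := (Nat.div_mul_cancel hdvd).symm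
        _ ∣ _ := mul_dvd_mul_left _ (prod_dvd_prod_of_subset _ _ _ h1)
  · rw [card_image_of_injOn]
    · exact hfin
    intro u hu v hv h
    rw [mem_coe, mem_filter] at hu hv
    obtain ⟨hu1, -, hup, -, -, hud, -⟩ := hPmem u hu.1
    obtain ⟨hv1, -, -, -, -, hvd, -⟩ := hPmem v hv.1
    dsimp only at h
    have he := hu.2.trans hv.2.symm
    rw [hκ] at he
    dsimp only at he
    rw [← h] at he hvd
    have h0 : (u.2 - 1) / (∏ q ∈ u.1, q) ≠ 0 := by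
      have := hup.two_le
      exact (Nat.div_pos (Nat.le_of_dvd (by omega) hud)
        (prod_pos fun q hq => (hQprime q (hu1 hq)).pos)).ne'
    have hmul : (u.2 - 1) / (∏ q ∈ u.1, q) * (∏ q ∈ u.1, q) =
        (u.2 - 1) / (∏ q ∈ v.1, q) * ∏ q ∈ v.1, q := by
      rw [Nat.div_mul_cancel hud, Nat.div_mul_cancel hvd]
    rw [← he] at hmul
    have hd := Nat.eq_of_mul_eq_mul_left (Nat.pos_of_ne_zero h0) hmul
    refine Sigma.ext ?_ (heq_of_eq h)
    rw [← primeFactors_prod_subset hQprime hu1, hd, primeFactors_prod_subset hQprime hv1]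

end FA.CarmichaelNumbers
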