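import Fermat.Agent.CarmichaelNumbers.ZeroSum
import Fermat.Agent.CarmichaelNumbers.ManyPrimes
import Fermat.Agent.PrimalityCriteria.Basic

/-!
# Infinitely many Carmichael numbers, with the count `x ^ δ`

A product of distinct primes `p` with `k ∣ p - 1 ∣ k L` that is `1` modulo `L` is a Carmichael number
by Korselt's criterion. The zero-sum bound gives many of them among the subsets of the primes found
by Prachar's argument (Alford, Granville and Pomerance, 1994).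
-/

set_option autoImplicit false

noncomputable section

open Finset Filter
open scoped Classical

namespace FA.CarmichaelNumbers

/-- A composite number passing Fermat's test to every coprime base. -/
def IsCarmichael (n : ℕ) : Prop :=
  1 < n ∧ ¬ n.Prime ∧ ∀ b : ℕ, b.Coprime n → b ^ (n - 1) ≡ 1 [MOD n]

/-- The Carmichael numbers `≤ x`. -/
def carmichaelUpTo (x : ℕ) : Finset ℕ := (Icc 1 x).filter IsCarmichael

theorem isCarmichael_prod {Q S : Finset ℕ} {k : ℕ} (hQ : ∀ q ∈ Q, q.Prime)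
    (hk : k.Coprime (∏ q ∈ Q, q))
    (hS : ∀ p ∈ S, p.Prime ∧ k ∣ p - 1 ∧ p - 1 ∣ k * ∏ q ∈ Q, q) (h2 : 2 ≤ #S)
    (h1 : ∀ q ∈ Q, ((∏ p ∈ S, p : ℕ) : ZMod q) = 1) : IsCarmichael (∏ p ∈ S, p) := by
  obtain ⟨n, hn⟩ : ∃ n, n = ∏ p ∈ S, p := ⟨_, rfl⟩
  rw [← hn] at h1 ⊢
  have hpf : n.primeFactors = S := hn ▸ Nat.primeFactors_prod fun p hp => (hS p hp).1
  have hn0 : 0 < n := hn ▸ prod_pos fun p hp => (hS p hp).1.pos
  have hone : ∀ m : ℕ, (n : ZMod m) = 1 → m ∣ n - 1 := fun m hm => by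
    rw [← Nat.cast_one, ZMod.natCast_eq_natCast_iff] at hm
    exact (Nat.modEq_iff_dvd' hn0).1 hm.symm
  have hkn : k ∣ n - 1 := hone k (by
    rw [hn, Nat.cast_prod]
    refine prod_eq_one fun p hp => ?_
    rw [← Nat.cast_one, ZMod.natCast_eq_natCast_iff]
    exact ((Nat.modEq_iff_dvd' (hS p hp).1.one_le).2 (hS p hp).2.1).symm)
  have hLn : ∏ q ∈ Q, q ∣ n - 1 :=
    prod_primes_dvd _ (fun q hq => (hQ q hq).prime) fun q hq => hone q (h1 q hq)
  have hall := hk.mul_dvd_of_dvd_of_dvd hkn hLn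
  have hn1 : 1 < n := by
    by_contra hlt
    have : n.primeFactors = ∅ := Nat.primeFactors_eq_empty.2 (by omega)
    rw [hpf] at this
    rw [this, card_empty] at h2
    omega
  refine ⟨hn1, fun hp => ?_, (PrimalityCriteria.korselt hn1).2 ⟨?_, fun p hp hd => ?_⟩⟩
  · rw [← hpf, hp.primeFactors, card_singleton] at h2
    omega
  · rw [hn]
    exact squarefree_prod_of_pairwise_isCoprime (fun _ hp _ hp' h => Nat.coprime_iff_isRelPrime.1
      ((Nat.coprime_primes (hS _ hp).1 (hS _ hp').1).2 h)) fun _ hp => (hS _ hp).1.squarefree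
  · have : p ∈ S := hpf ▸ Nat.mem_primeFactors.2 ⟨hp, hd, hn0.ne'⟩
    exact (hS p this).2.2.trans hall

/-- The residues modulo all `q ∈ Q` at once. -/
abbrev ResidueGroup (Q : Finset ℕ) : Type := ∀ q : Q, (ZMod (q : ℕ))ˣ

/-- A number as an element of the group; `1` where it is no unit. -/
def residues (Q : Finset ℕ) (m : ℕ) : ResidueGroup Q :=
  fun q => if h : IsUnit (m : ZMod (q : ℕ)) then h.unit else 1

theorem exists_hasZeroSum (Q : Finset ℕ) {A B : ℕ} (hQ : ∀ q ∈ Q, q.Prime ∧ q ≤ A ∧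
    ∀ r : ℕ, r.Prime → r ∣ q - 1 → r ≤ B) :
    ∃ b : Q → ResidueGroup Q, HasZeroSum b ((#Q * A + 1) ^ B) ∧
      ∀ x : ResidueGroup Q, x ∈ Subgroup.closure (Set.range b) := by
  have hfact : ∀ q : Q, Fact (q : ℕ).Prime := fun q => ⟨(hQ q q.2).1⟩
  choose z hz using fun q : Q => IsCyclic.exists_generator (α := (ZMod (q : ℕ))ˣ)
  refine ⟨fun q => Pi.mulSingle q (z q), fun g s hg hs => ?_, fun x => ?_⟩
  · have hm : 0 < (univ : Finset Q).lcm fun q => (q : ℕ) - 1 := by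
      refine Nat.pos_of_ne_zero fun h => ?_
      obtain ⟨q, -, h0⟩ := Finset.lcm_eq_zero_iff.1 h
      have := (hfact q).out.two_le
      omega
    refine hasZeroSum_zeroBound _ hm (fun q => Pi.mulSingle q (z q)) (fun q => ?_) g s hg ?_
    · obtain ⟨c, hc⟩ := Finset.dvd_lcm (s := (univ : Finset Q)) (f := fun q : Q => (q : ℕ) - 1)
        (mem_univ q)
      rw [hc, ← Pi.mulSingle_pow, pow_mul, ZMod.units_pow_card_sub_one_eq_one, one_pow,
        Pi.mulSingle_one]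
    · refine le_trans ?_ hs
      rw [Fintype.card_coe]
      refine zeroBound_lcm_le _ (fun q => ?_) (fun q => ?_) fun q r hr hrd => (hQ q q.2).2.2 r hr hrd
      · have := (hfact q).out.two_le
        omega
      · exact (Nat.sub_le _ 1).trans (hQ q q.2).2.1
  · refine Subgroup.pi_mem_of_mulSingle_mem x fun q => ?_
    obtain ⟨i, hi⟩ := Subgroup.mem_zpowers_iff.1 (hz q (x q))
    rw [← hi, Pi.mulSingle_zpow]
    exact Subgroup.zpow_mem _ (Subgroup.subset_closure (Set.mem_range_self q)) _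

/-- **From many primes to many Carmichael numbers.** -/
theorem card_carmichael_ge {Q T : Finset ℕ} {k X x A B t : ℕ} (hQ : ∀ q ∈ Q, q.Prime ∧ q ≤ A ∧
    ∀ r : ℕ, r.Prime → r ∣ q - 1 → r ≤ B) (hk : k.Coprime (∏ q ∈ Q, q))
    (hT : ∀ p ∈ T, p.Prime ∧ p ≤ 2 * X ∧ (∀ q ∈ Q, q < p) ∧ k ∣ p - 1 ∧ p - 1 ∣ k * ∏ q ∈ Q, q)
    (ht : (#Q * A + 1) ^ B + 2 ≤ t) (hx : (2 * X) ^ t ≤ x) :
    (#T).choose t ≤ #(carmichaelUpTo x) * (#T + 2) ^ ((#Q * A + 1) ^ B) := by
  obtain ⟨b, hb, hgen⟩ := exists_hasZeroSum Q hQ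
  refine (choose_le_card_prod_one (g := residues Q) hb (fun j _ => hgen _) t).trans
    (Nat.mul_le_mul_right _ ?_)
  refine card_le_card_of_injOn (fun S => ∏ p ∈ S, p) (fun S hS => ?_) ?_
  · rw [mem_coe, mem_filter, mem_powerset] at hS
    obtain ⟨hST, hSt, htS, hS1⟩ := hS
    have hTS := fun p hp => hT p (hST hp)
    refine mem_filter.2 ⟨mem_Icc.2 ⟨prod_pos fun p hp => (hTS p hp).1.pos, ?_⟩,
      isCarmichael_prod (Q := Q) (fun q hq => (hQ q hq).1) hk
        (fun p hp => ⟨(hTS p hp).1, (hTS p hp).2.2.2.1, (hTS p hp).2.2.2.2⟩) (by omega)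
        fun q hq => ?_⟩
    · refine le_trans ?_ hx
      refine (prod_le_pow_card _ _ (2 * X) fun p hp => (hTS p hp).2.1).trans ?_
      rcases Nat.eq_zero_or_pos (2 * X) with h | h
      · obtain ⟨p, hp⟩ : S.Nonempty := card_pos.1 (by omega)
        have := (hTS p hp).2.1
        have := (hTS p hp).1.pos
        omega
      · exact Nat.pow_le_pow_right h hSt
    · have : Fact q.Prime := ⟨(hQ q hq).1⟩
      have h2 := congr_arg (fun u : ResidueGroup Q => ((u ⟨q, hq⟩ : (ZMod q)ˣ) : ZMod q)) hS1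
      simp only [Finset.prod_apply, Units.coe_prod, Pi.one_apply, Units.val_one] at h2
      rw [Nat.cast_prod, ← h2]
      refine prod_congr rfl fun p hp => ?_
      have hu : IsUnit (p : ZMod q) := by
        rw [ZMod.isUnit_iff_coprime]
        exact (Nat.coprime_primes (hTS p hp).1 (hQ q hq).1).2 ((hTS p hp).2.2.1 q hq).ne'
      simp only [residues, dif_pos hu, IsUnit.unit_spec]
  · intro S hS U hU h
    rw [mem_coe, mem_filter, mem_powerset] at hS hU
    have h2 := congr_arg Nat.primeFactors h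
    dsimp only at h2
    rwa [Nat.primeFactors_prod fun p hp => (hT p (hS.1 hp)).1,
      Nat.primeFactors_prod fun p hp => (hT p (hU.1 hp)).1] at h2

/-- The count, from the sizes. -/
theorem exp_le_of_choose_le {R t n C : ℕ} {u : ℝ} (hu : 8 ≤ u) (hR : Real.exp u - 1 ≤ R)
    (hR' : (R : ℝ) ≤ Real.exp u) (hn : 16 * n ≤ t) (ht : 0 < t) (ht' : (t : ℝ) ≤ Real.exp (u / 2))
    (h : R.choose t ≤ C * (R + 2) ^ n) : Real.exp ((t : ℝ) * (u / 4)) ≤ C := by
  have ht0 : (0 : ℝ) < t := Nat.cast_pos.2 ht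
  have h1 : Real.exp (u / 2 - 1) ≤ ((R + 1 - t : ℕ) : ℝ) / t := by
    rw [le_div_iff₀ ht0]
    have h2 : (R : ℝ) + 1 - t ≤ ((R + 1 - t : ℕ) : ℝ) := by
      have : ((R + 1 : ℕ) : ℝ) ≤ ((R + 1 - t : ℕ) : ℝ) + t := by
        exact_mod_cast (show R + 1 ≤ R + 1 - t + t by omega)
      push_cast at this
      linarith
    refine le_trans ?_ h2
    obtain ⟨v, hv⟩ : ∃ v, v = Real.exp (u / 2) := ⟨_, rfl⟩
    have e : Real.exp u = v * v := by rw [hv, ← Real.exp_add, add_halves]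
    have hv2 : 4 ≤ v := by rw [hv]; linarith [Real.add_one_le_exp (u / 2)]
    have h3 : Real.exp (u / 2 - 1) ≤ v / 2 := by
      rw [hv, Real.exp_sub, div_le_div_iff₀ (Real.exp_pos 1) two_pos]
      exact mul_le_mul_of_nonneg_left (by linarith [Real.add_one_le_exp (1 : ℝ)]) (Real.exp_pos _).le
    refine (mul_le_mul_of_nonneg_right h3 ht0.le).trans ?_
    rw [← hv] at ht'
    have := mul_le_mul_of_nonneg_left ht' (show 0 ≤ v / 2 by linarith)
    nlinarith
  have h4 : Real.exp ((t : ℝ) * (u / 2 - 1)) ≤ (R.choose t : ℝ) := by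
    rw [Real.exp_nat_mul]
    exact (pow_le_pow_left₀ (Real.exp_pos _).le h1 t).trans (pow_div_le_choose R t)
  have h5 : ((R : ℝ) + 2) ^ n ≤ Real.exp ((n : ℝ) * (2 * u)) := by
    rw [Real.exp_nat_mul]
    refine pow_le_pow_left₀ (by positivity) ?_ n
    have h6 : 3 ≤ Real.exp u := by linarith [Real.add_one_le_exp u]
    rw [two_mul, Real.exp_add]
    nlinarith
  have h7 : (R.choose t : ℝ) ≤ C * ((R : ℝ) + 2) ^ n := by exact_mod_cast h
  have h8 := h4.trans (h7.trans (mul_le_mul_of_nonneg_left h5 (Nat.cast_nonneg C)))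
  rw [← div_le_iff₀ (Real.exp_pos _), ← Real.exp_sub] at h8
  refine le_trans (Real.exp_le_exp.2 ?_) h8
  have h9 : 16 * (n : ℝ) ≤ t := by exact_mod_cast hn
  have := mul_le_mul_of_nonneg_right h9 (show 0 ≤ u by linarith)
  have := mul_le_mul_of_nonneg_left hu ht0.le
  linarith

/-- **The level `Z` serves the `x` with `Z ^ γ / 2 ≤ log log x ≤ Z ^ γ`.** -/
theorem exists_level_count : ∃ δ γ : ℝ, 0 < δ ∧ 0 < γ ∧ γ ≤ 1 ∧ ∀ᶠ Z : ℕ in atTop, ∀ x : ℕ,
    (Z : ℝ) ^ γ / 2 ≤ Real.log (Real.log x) → Real.log (Real.log x) ≤ (Z : ℝ) ^ γ →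
      (x : ℝ) ^ δ ≤ #(carmichaelUpTo x) := by
  obtain ⟨E, B, hE, hE4, hB0, hB16, hmany⟩ := exists_manyPrimesAt
  refine ⟨E * B / 192, 1 - 3 * E / 4, by positivity, by linarith, by linarith, ?_⟩
  obtain ⟨c, hc⟩ : ∃ c : ℝ, c = Real.log (96 / B) := ⟨_, rfl⟩
  have hc0 : 0 ≤ c := hc ▸ Real.log_nonneg (by rw [le_div_iff₀ hB0]; linarith)
  have hbig := ((tendsto_rpow_atTop (show 0 < E / 4 by linarith)).comp
    (tendsto_natCast_atTop_atTop (R := ℝ))).eventually_ge_atTop (256 / E)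
  filter_upwards [hmany, hbig, eventually_pow_log_le (2 * (c + 10)) (E / 4) (by linarith),
    BombieriVinogradov.eventually_log_ge 4, eventually_ge_atTop 4] with Z hmZ hbig hlog hl4 hZ4 x hlo hhi
  simp only [Function.comp_apply] at hbig
  obtain ⟨l, hl⟩ : ∃ l, l = Real.log Z := ⟨_, rfl⟩
  rw [← hl] at hl4 hlog
  have hZ0 : (0 : ℝ) < Z := Nat.cast_pos.2 (by omega)
  have hZ1 : (1 : ℝ) ≤ Z := Nat.one_le_cast.2 (by omega)
  obtain ⟨P, hP⟩ : ∃ P, P = (Z : ℝ) ^ (1 - 3 * E / 4) := ⟨_, rfl⟩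
  rw [← hP] at hlo hhi
  obtain ⟨j, hj⟩ : ∃ j, j = ⌊(Z : ℝ) ^ (1 - E / 2)⌋₊ := ⟨_, rfl⟩
  have hZη : 1 ≤ (Z : ℝ) ^ (1 - E / 2) := Real.one_le_rpow hZ1 (by linarith)
  have hjle : (j : ℝ) ≤ (Z : ℝ) ^ (1 - E / 2) := hj ▸ Nat.floor_le (by linarith)
  have hjge : (Z : ℝ) ^ (1 - E / 2) / 2 ≤ j := by
    have h1 : 1 ≤ j := hj ▸ Nat.le_floor (by exact_mod_cast hZη)
    have h2 : (1 : ℝ) ≤ j := Nat.one_le_cast.2 h1
    have h3 : (Z : ℝ) ^ (1 - E / 2) < j + 1 := hj ▸ Nat.lt_floor_add_one _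
    linarith
  have hj0 : 0 < j := Nat.cast_pos.1 (show (0 : ℝ) < j by linarith)
  have hj1 : (1 : ℝ) ≤ j := Nat.one_le_cast.2 hj0
  obtain ⟨Q, T, k, X, hk0, hX1, hlX, hQZ, hQ, hkQ, hT, hTcard⟩ := hmZ j hj0 hjle
  rw [← hl] at hlX
  -- `u`
  obtain ⟨u, hu⟩ : ∃ u, u = E / 8 * j * l := ⟨_, rfl⟩
  have hTexp : Real.exp u ≤ #T := by
    refine le_of_eq_of_le ?_ hTcard
    rw [hu, hl, Real.rpow_def_of_pos hZ0]
    ring_nf
  have hPu : 8 * P ≤ u := by
    have h1 : (Z : ℝ) ^ (1 - E / 2) = P * (Z : ℝ) ^ (E / 4) := by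
      rw [hP, ← Real.rpow_add hZ0]
      congr 1
      ring
    rw [h1] at hjge
    rw [div_le_iff₀ hE] at hbig
    have hP0 : 0 ≤ P := hP ▸ by positivity
    have h2 := mul_le_mul_of_nonneg_left hjge hE.le
    have h3 := mul_le_mul_of_nonneg_left hbig hP0
    have h4 := mul_le_mul_of_nonneg_left hl4 (show 0 ≤ E / 8 * (j : ℝ) by positivity)
    rw [hu]
    linarith
  have hP1 : 1 ≤ P := hP ▸ Real.one_le_rpow hZ1 (by linarith)
  have hu8 : 8 ≤ u := by linarith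
  -- the numbers
  obtain ⟨y, hy⟩ : ∃ y : ℕ, y = ⌊(Z : ℝ) ^ (1 - E)⌋₊ := ⟨_, rfl⟩
  obtain ⟨n, hn⟩ : ∃ n : ℕ, n = (#Q * (2 * Z) + 1) ^ y := ⟨_, rfl⟩
  have hn1 : 1 ≤ n := hn ▸ Nat.one_le_pow _ _ (Nat.succ_pos _)
  obtain ⟨a, ha⟩ : ∃ a, a = 3 / B * (j * l) := ⟨_, rfl⟩
  rw [← ha] at hlX
  have hBinv : (48 : ℝ) ≤ 3 / B := by rw [le_div_iff₀ hB0]; linarith
  have ha1 : 1 ≤ a := by
    have := mul_le_mul hBinv (mul_le_mul hj1 hl4 (by norm_num) (by linarith)) (by norm_num) (by linarith)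
    rw [ha]
    linarith
  have ha0 : 0 < a := by linarith
  -- the lower end
  have hlow : 32 * (n : ℝ) * a ≤ Real.log x := by
    have hpos : 0 < Real.log (Real.log x) := by linarith
    have hlx : 0 < Real.log x := by
      rcases le_or_gt (Real.log x) 0 with h | h
      · rw [le_antisymm h (Real.log_natCast_nonneg x), Real.log_zero] at hpos
        exact absurd hpos (lt_irrefl _)
      · exact h
    refine (Real.log_le_log_iff (by positivity) hlx).1 (le_trans ?_ hlo)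
    have hn0 : (0 : ℝ) < n := Nat.cast_pos.2 hn1
    rw [ha, show 32 * (n : ℝ) * (3 / B * (j * l)) = 96 / B * (n * (j * l)) by ring,
      Real.log_mul (by positivity) (by positivity), Real.log_mul hn0.ne' (by positivity), ← hc,
      Real.log_mul (by positivity) (by linarith)]
    have h1 : Real.log n ≤ 4 * l * (Z : ℝ) ^ (1 - E) := by
      have h2 : ((#Q * (2 * Z) + 1 : ℕ) : ℝ) ≤ (Z : ℝ) ^ 4 := by
        have h3 : #Q * (2 * Z) + 1 ≤ Z ^ 4 := by
          have h4 := Nat.mul_le_mul_right (2 * Z) hQZ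
          have h5 : 4 * (Z * Z) ≤ Z ^ 4 := by
            calc 4 * (Z * Z) ≤ (Z * Z) * (Z * Z) :=
                  Nat.mul_le_mul_right _ (hZ4.trans (Nat.le_mul_of_pos_left Z (by omega)))
              _ = Z ^ 4 := by ring
          have h6 : 1 ≤ Z * Z := Nat.mul_pos (by omega) (by omega)
          linarith
        exact_mod_cast h3
      rw [hn, Nat.cast_pow, Real.log_pow]
      refine (mul_le_mul (hy ▸ Nat.floor_le (by positivity))
        (Real.log_le_log (Nat.cast_pos.2 (Nat.succ_pos _)) h2) (Real.log_natCast_nonneg _)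
        (by positivity)).trans (le_of_eq ?_)
      rw [Real.log_pow, ← hl]
      push_cast
      ring
    have h2 : Real.log j ≤ l := by
      rw [hl]
      refine Real.log_le_log (by linarith) (hjle.trans ?_)
      conv_rhs => rw [← Real.rpow_one (Z : ℝ)]
      exact Real.rpow_le_rpow_of_exponent_le hZ1 (by linarith)
    have h3 : Real.log l ≤ l := Real.log_le_self (by linarith)
    have h4 : 1 ≤ (Z : ℝ) ^ (1 - E) := Real.one_le_rpow hZ1 (by linarith)
    have h5 : P = (Z : ℝ) ^ (1 - E) * (Z : ℝ) ^ (E / 4) := by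
      rw [hP, ← Real.rpow_add hZ0]
      congr 1
      ring
    have h6 := mul_le_mul_of_nonneg_left hlog (show (0 : ℝ) ≤ (Z : ℝ) ^ (1 - E) by linarith)
    rw [← h5] at h6
    have h7 := mul_le_mul_of_nonneg_left h4 (show 0 ≤ (2 * c + 4) * l by positivity)
    have h8 := mul_le_mul_of_nonneg_left hl4 hc0
    have h9 : 0 ≤ l * (Z : ℝ) ^ (1 - E) := by positivity
    linarith
  have hhigh : Real.log x ≤ Real.exp (u / 2) := by
    refine le_trans ?_ (Real.exp_le_exp.2 (show Real.log (Real.log x) ≤ u / 2 by linarith))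
    exact Real.le_exp_log _
  have hn1' : (1 : ℝ) ≤ n := Nat.one_le_cast.2 hn1
  have hlx1 : 0 < Real.log x := lt_of_lt_of_le (by positivity) hlow
  have hx0 : (0 : ℝ) < x := by
    rcases Nat.eq_zero_or_pos x with rfl | h
    · simp at hlx1
    · exact Nat.cast_pos.2 h
  -- `t`
  obtain ⟨t, ht⟩ : ∃ t, t = ⌊Real.log x / a⌋₊ := ⟨_, rfl⟩
  have ht32 : 32 * n ≤ t := by
    rw [ht]
    refine Nat.le_floor ?_
    rw [le_div_iff₀ ha0]
    push_cast
    exact hlow
  have htle : (t : ℝ) * a ≤ Real.log x := by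
    rw [← le_div_iff₀ ha0, ht]
    exact Nat.floor_le (div_nonneg hlx1.le ha0.le)
  have htge : Real.log x / a / 2 ≤ t := by
    have h1 : (1 : ℝ) ≤ t := Nat.one_le_cast.2 (by omega)
    have h2 : Real.log x / a < t + 1 := ht ▸ Nat.lt_floor_add_one _
    linarith
  have hXx : (2 * X) ^ t ≤ x := by
    have h1 : ((2 * X : ℕ) : ℝ) ^ t ≤ x := by
      have h2 : (0 : ℝ) < ((2 * X : ℕ) : ℝ) := Nat.cast_pos.2 (by omega)
      rw [← Real.log_le_log_iff (pow_pos h2 _) hx0, Real.log_pow]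
      refine le_trans (mul_le_mul_of_nonneg_left ?_ (Nat.cast_nonneg t)) htle
      push_cast
      exact hlX
    exact_mod_cast h1
  obtain ⟨R, hR⟩ : ∃ R, R = ⌊Real.exp u⌋₊ := ⟨_, rfl⟩
  have hRT : R ≤ #T := hR ▸ Nat.floor_le_of_le hTexp
  obtain ⟨T', hT', hT'card⟩ := exists_subset_card_eq hRT
  have hcount := card_carmichael_ge (Q := Q) (T := T') (A := 2 * Z) (B := y) (t := t)
    (fun q hq => ⟨(hQ q hq).1, (hQ q hq).2.2.1, fun r hr hrd =>
      hy ▸ Nat.le_floor ((hQ q hq).2.2.2 r hr hrd)⟩) hkQ (fun p hp => hT p (hT' hp))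
    (by rw [← hn]; omega) hXx
  rw [hT'card, ← hn] at hcount
  have hfin := exp_le_of_choose_le hu8 (R := R) (n := n) (t := t)
    (by rw [hR]; linarith [Nat.lt_floor_add_one (Real.exp u)])
    (hR ▸ Nat.floor_le (Real.exp_pos _).le) (by omega) (by omega)
    (((le_mul_of_one_le_right (Nat.cast_nonneg t) ha1).trans htle).trans hhigh) hcount
  refine le_trans ?_ hfin
  rw [Real.rpow_def_of_pos hx0, Real.exp_le_exp]
  have h1 := mul_le_mul_of_nonneg_right htge (show 0 ≤ u / 4 by linarith)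
  refine le_trans (le_of_eq ?_) h1
  rw [hu, ha]
  field_simp
  ring

/-- **The theorem of Alford, Granville and Pomerance.** -/
theorem exists_carmichael_count :
    ∃ δ : ℝ, 0 < δ ∧ ∀ᶠ x : ℕ in atTop, (x : ℝ) ^ δ ≤ #(carmichaelUpTo x) := by
  obtain ⟨δ, γ, hδ, hγ, hγ1, h⟩ := exists_level_count
  refine ⟨δ, hδ, ?_⟩
  have hW : Tendsto (fun x : ℕ => Real.log (Real.log x)) atTop atTop :=
    Real.tendsto_log_atTop.comp (Real.tendsto_log_atTop.comp tendsto_natCast_atTop_atTop)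
  have hZ : Tendsto (fun x : ℕ => ⌈Real.log (Real.log x) ^ (1 / γ)⌉₊) atTop atTop :=
    tendsto_nat_ceil_atTop.comp ((tendsto_rpow_atTop (by positivity)).comp hW)
  filter_upwards [hZ.eventually h, hW.eventually_ge_atTop 1] with x hx hW1
  obtain ⟨w, hw⟩ : ∃ w, w = Real.log (Real.log x) := ⟨_, rfl⟩
  rw [← hw] at hx hW1
  obtain ⟨r, hr⟩ : ∃ r, r = w ^ (1 / γ) := ⟨_, rfl⟩
  rw [← hr] at hx
  have hr0 : 0 ≤ r := hr ▸ by positivity
  have hrw : r ^ γ = w := by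
    rw [hr, ← Real.rpow_mul (by linarith), one_div, inv_mul_cancel₀ hγ.ne', Real.rpow_one]
  refine hx x ?_ ?_
  · rw [← hw, div_le_iff₀ two_pos]
    -- `⌈r⌉ ≤ r + 1` and `(r + 1) ^ γ ≤ 2 r ^ γ`
    refine (Real.rpow_le_rpow (Nat.cast_nonneg _) (Nat.ceil_lt_add_one hr0).le hγ.le).trans ?_
    refine (Real.rpow_add_le_add_rpow hr0 zero_le_one hγ.le hγ1).trans ?_
    rw [hrw, Real.one_rpow]
    linarith
  · rw [← hw, ← hrw]
    exact Real.rpow_le_rpow hr0 (Nat.le_ceil _) hγ.le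

end FA.CarmichaelNumbers
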