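import Fermat.Agent.Gallagher.Progressions
import Fermat.Agent.Chen.MertensLower

/-!
# Primes in progressions off one exceptional modulus, and primes `q` with `q - 1` smooth

For a fixed `B > 0` and large `X` there is one modulus `D ≥ 2` such that every class prime to `q`
holds `≥ X / (2 φ q log 2 X)` primes of `(X, 2 X]` for all `q ≤ X ^ B` not multiples of `D` (Gallagher's
prime number theorem). Hence `≫ Z / log Z` primes `q` of `(Z, 2 Z]` have `q - 1` free of prime factors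
`> Z ^ (1 - B/4)`.
-/

set_option autoImplicit false

noncomputable section

open Complex Finset Filter
open FA.Gallagher
open scoped Classical ArithmeticFunction.vonMangoldt

namespace FA.CarmichaelNumbers

/-- The primes of `(X, 2 X]` that are `1` modulo `q`. -/
def classPrimes (X q : ℕ) : Finset ℕ :=
  (Ioc X (2 * X)).filter fun p : ℕ => p.Prime ∧ p ≡ 1 [MOD q]

theorem eventually_pow_log_le (a s : ℝ) (hs : 0 < s) : ∀ᶠ X : ℕ in atTop, a * Real.log X ≤ (X : ℝ) ^ s := by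
  have h := ((tendsto_rpow_atTop (half_pos hs)).comp
    (tendsto_natCast_atTop_atTop (R := ℝ))).eventually_ge_atTop (max a 0 * (2 / s))
  filter_upwards [h, eventually_ge_atTop 1] with X h hX
  simp only [Function.comp_apply] at h
  have hX0 : (0 : ℝ) < X := Nat.cast_pos.2 hX
  have h1 := Real.log_le_rpow_div hX0.le (half_pos hs)
  refine (mul_le_mul_of_nonneg_right (le_max_left a 0) (Real.log_natCast_nonneg X)).trans ?_
  refine (mul_le_mul_of_nonneg_left h1 (le_max_right a 0)).trans ?_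
  rw [show (X : ℝ) ^ s = (X : ℝ) ^ (s / 2) * (X : ℝ) ^ (s / 2) by rw [← Real.rpow_add hX0, add_halves]]
  have e : max a 0 * ((X : ℝ) ^ (s / 2) / (s / 2)) = max a 0 * (2 / s) * (X : ℝ) ^ (s / 2) := by
    field_simp
  rw [e]
  exact mul_le_mul_of_nonneg_right h (Real.rpow_nonneg hX0.le _)

theorem classSum_sub_le {X q : ℕ} [NeZero q] (hX : 1 ≤ X) :
    classSum (1 : ZMod q) X ≤ (#(classPrimes X q) : ℝ) * Real.log (2 * X) +
      2 * Real.sqrt (2 * X) * Real.log (2 * X) := by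
  obtain ⟨S, hS⟩ : ∃ S, S = (Ioc X (2 * X)).filter fun n : ℕ => (1 : ZMod q) = n := ⟨_, rfl⟩
  have e : classSum (1 : ZMod q) X = ∑ n ∈ S, Λ n := by
    rw [classSum, hS, sum_filter]
    refine sum_congr ?_ fun n _ => rfl
    rw [Nat.floor_natCast, show (X : ℝ) + X = ((2 * X : ℕ) : ℝ) by push_cast; ring, Nat.floor_natCast]
  rw [e, ← sum_filter_add_sum_filter_not S Nat.Prime]
  refine add_le_add ?_ ?_
  · refine (sum_le_card_nsmul _ _ (Real.log (2 * X)) fun n hn => ?_).trans ?_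
    · rw [hS, mem_filter, mem_filter, mem_Ioc] at hn
      refine ArithmeticFunction.vonMangoldt_le_log.trans (Real.log_le_log (Nat.cast_pos.2 (by omega)) ?_)
      exact_mod_cast hn.1.1.2
    · rw [nsmul_eq_mul]
      refine mul_le_mul_of_nonneg_right (Nat.cast_le.2 (card_le_card fun n hn => ?_))
        (Real.log_nonneg (by exact_mod_cast (show 1 ≤ 2 * X by omega)))
      rw [hS, mem_filter, mem_filter] at hn
      refine mem_filter.2 ⟨hn.1.1, hn.2, ?_⟩
      rw [← ZMod.natCast_eq_natCast_iff, Nat.cast_one]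
      exact hn.1.2.symm
  · refine (sum_le_sum_of_subset_of_nonneg (t := (Ioc 0 ⌊(2 * X : ℝ)⌋₊).filter fun n => ¬ n.Prime)
      (fun n hn => ?_) fun n _ _ => ArithmeticFunction.vonMangoldt_nonneg).trans ?_
    · rw [hS, mem_filter, mem_filter, mem_Ioc] at hn
      rw [show (2 * X : ℝ) = ((2 * X : ℕ) : ℝ) by push_cast; ring, Nat.floor_natCast]
      exact mem_filter.2 ⟨mem_Ioc.2 ⟨by omega, hn.1.1.2⟩, hn.2⟩
    · rw [← Chebyshev.psi_sub_theta_eq_sum_not_prime]
      exact Chebyshev.psi_sub_theta_le (by exact_mod_cast (show 1 ≤ 2 * X by omega))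

/-- **One exceptional modulus.** -/
theorem exists_classPrimes_ge : ∃ B : ℝ, 0 < B ∧ B ≤ 1 / 16 ∧ ∀ᶠ X : ℕ in atTop, ∃ D : ℕ, 2 ≤ D ∧
    ∀ q : ℕ, 0 < q → (q : ℝ) ≤ (X : ℝ) ^ B → ¬ D ∣ q →
      (X : ℝ) / (2 * q.totient * Real.log (2 * X)) ≤ #(classPrimes X q) := by
  obtain ⟨Cg, cg, M, hCg, hcg, hgal⟩ := exists_gallagher
  obtain ⟨K, hK⟩ : ∃ K : ℕ, K = M + ⌈8 * Cg / cg⌉₊ + 8 := ⟨_, rfl⟩
  have hK8 : (8 : ℝ) ≤ K := by exact_mod_cast (show 8 ≤ K by omega)
  have hdecK : 8 * Cg / cg ≤ K := (Nat.le_ceil _).trans (Nat.cast_le.2 (by omega))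
  obtain ⟨B, hB⟩ : ∃ B : ℝ, B = 1 / (2 * K) := ⟨_, rfl⟩
  have hB0 : 0 < B := hB ▸ by positivity
  have hB16 : B ≤ 1 / 16 := hB ▸ one_div_le_one_div_of_le (by norm_num) (by linarith)
  refine ⟨B, hB0, hB16, ?_⟩
  have hbigB := ((tendsto_rpow_atTop hB0).comp
    (tendsto_natCast_atTop_atTop (R := ℝ))).eventually_ge_atTop (2 : ℝ)
  filter_upwards [hbigB, BombieriVinogradov.eventually_log_ge (max 1 (4 * (K : ℝ) ^ 2)),
    eventually_pow_log_le 96 (1 / 4) (by norm_num), eventually_ge_atTop 4]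
    with X hbigB hlX hlog hX4
  simp only [Function.comp_apply] at hbigB
  have hl1 : 1 ≤ Real.log X := le_of_max_le_left hlX
  have hlK : 4 * (K : ℝ) ^ 2 ≤ Real.log X := le_of_max_le_right hlX
  have hX0 : (0 : ℝ) < X := Nat.cast_pos.2 (by omega)
  have hX1 : (1 : ℝ) ≤ X := Nat.one_le_cast.2 (by omega)
  -- the level
  obtain ⟨Q, hQ⟩ : ∃ Q : ℕ, Q = ⌊((X : ℝ) ^ B) * (X : ℝ) ^ B⌋₊ := ⟨_, rfl⟩
  have hQge : (X : ℝ) ^ B ≤ Q := by
    have h1 : (X : ℝ) ^ B * (X : ℝ) ^ B - 1 < Q := by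
      rw [hQ]
      linarith [Nat.lt_floor_add_one ((X : ℝ) ^ B * (X : ℝ) ^ B)]
    nlinarith
  have hQle : (Q : ℝ) ≤ (X : ℝ) ^ (1 / (K : ℝ)) := by
    refine (hQ ▸ Nat.floor_le (by positivity)).trans (le_of_eq ?_)
    rw [← Real.rpow_add hX0, hB]
    congr 1
    field_simp
    norm_num
  have hQ2 : 2 ≤ Q := by exact_mod_cast (show (2 : ℝ) ≤ Q by linarith)
  have hlQ : B * Real.log X ≤ Real.log Q := by
    rw [← Real.log_rpow hX0]
    exact Real.log_le_log (by positivity) hQge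
  have hlQ0 : 0 < Real.log Q := Real.log_pos (by exact_mod_cast hQ2)
  have hlQu : Real.log Q ≤ Real.log X / K := by
    refine (Real.log_le_log (by positivity) hQle).trans (le_of_eq ?_)
    rw [Real.log_rpow hX0]
    ring
  have hQx : (Q : ℝ) ^ M ≤ X := by
    refine (pow_le_pow_left₀ (Nat.cast_nonneg Q) hQle M).trans ?_
    rw [← Real.rpow_natCast, ← Real.rpow_mul hX0.le]
    refine (Real.rpow_le_rpow_of_exponent_le hX1 ?_).trans (Real.rpow_one _).le
    rw [one_div_mul_eq_div, div_le_one (by linarith)]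
    exact Nat.cast_le.2 (by omega)
  have hlx2 : Real.log X ≤ Real.log Q ^ 2 := by
    refine le_trans ?_ (pow_le_pow_left₀ (by positivity) hlQ 2)
    rw [mul_pow, hB, div_pow, one_pow, mul_pow, div_mul_eq_mul_div, one_mul, le_div_iff₀ (by positivity)]
    nlinarith
  have hdec : Cg * Real.exp (-(cg * (Real.log X / Real.log Q))) ≤ 1 / 8 := by
    have h1 : (K : ℝ) ≤ Real.log X / Real.log Q := by
      rw [le_div_iff₀ hlQ0, mul_comm]
      rwa [le_div_iff₀ (by linarith)] at hlQu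
    have h2 : 8 * Cg / cg ≤ Real.log X / Real.log Q := hdecK.trans h1
    rw [div_le_iff₀ hcg, mul_comm _ cg] at h2
    have h3 := Real.add_one_le_exp (cg * (Real.log X / Real.log Q))
    rw [Real.exp_neg, ← div_eq_mul_inv, div_le_iff₀ (Real.exp_pos _)]
    linarith
  have hl2 : Real.log (2 * (X : ℝ)) ≤ 2 * Real.log X := by
    rw [Real.log_mul two_ne_zero hX0.ne']
    linarith [Real.log_two_lt_d9]
  have hrem : ∀ q : ℕ, (q : ℝ) ≤ (X : ℝ) ^ B →
      (q.totient : ℝ) * (q * Real.log ((X : ℝ) + X)) ≤ X / 8 ∧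
        (q.totient : ℝ) * (2 * Real.sqrt (2 * X) * Real.log (2 * X)) ≤ X / 8 := by
    intro q hq
    have hφ : (q.totient : ℝ) ≤ (X : ℝ) ^ B := (Nat.cast_le.2 (Nat.totient_le q)).trans hq
    have h34 : (X : ℝ) ^ (3 / 4 : ℝ) * (X : ℝ) ^ (1 / 4 : ℝ) = X := by
      rw [← Real.rpow_add hX0]
      norm_num
    have hB34 : (X : ℝ) ^ B * (X : ℝ) ^ B ≤ (X : ℝ) ^ (3 / 4 : ℝ) := by
      rw [← Real.rpow_add hX0]
      exact Real.rpow_le_rpow_of_exponent_le hX1 (by linarith)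
    have hBs : (X : ℝ) ^ B * Real.sqrt X ≤ (X : ℝ) ^ (3 / 4 : ℝ) := by
      rw [Real.sqrt_eq_rpow, ← Real.rpow_add hX0]
      exact Real.rpow_le_rpow_of_exponent_le hX1 (by linarith)
    have hl20 : 0 ≤ Real.log (2 * (X : ℝ)) := Real.log_nonneg (by linarith)
    rw [← two_mul]
    constructor
    · refine (mul_le_mul hφ (mul_le_mul hq hl2 hl20 (by positivity)) (by positivity) (by positivity)).trans ?_
      rw [← mul_assoc]
      refine (mul_le_mul_of_nonneg_right hB34 (by positivity)).trans ?_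
      have := mul_le_mul_of_nonneg_left hlog (show 0 ≤ (X : ℝ) ^ (3 / 4 : ℝ) by positivity)
      rw [h34] at this
      linarith [mul_nonneg (show 0 ≤ (X : ℝ) ^ (3 / 4 : ℝ) by positivity) (show 0 ≤ Real.log (X : ℝ) by linarith)]
    · have hs : Real.sqrt (2 * (X : ℝ)) ≤ 2 * Real.sqrt X := by
        rw [Real.sqrt_mul zero_le_two]
        refine mul_le_mul_of_nonneg_right ?_ (Real.sqrt_nonneg _)
        rw [Real.sqrt_le_iff]
        norm_num
      refine (mul_le_mul hφ (mul_le_mul (mul_le_mul_of_nonneg_left hs zero_le_two) hl2 hl20 (by positivity))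
        (by positivity) (by positivity)).trans ?_
      have h1 := mul_le_mul_of_nonneg_right hBs (show 0 ≤ 8 * Real.log (X : ℝ) by linarith)
      have := mul_le_mul_of_nonneg_left hlog (show 0 ≤ (X : ℝ) ^ (3 / 4 : ℝ) by positivity)
      rw [h34] at this
      linarith
  have hfin : ∀ q : ℕ, 0 < q → (q : ℝ) ≤ (X : ℝ) ^ B → ∀ [NeZero q],
      (X : ℝ) - X / 8 - q.totient * (q * Real.log ((X : ℝ) + X)) ≤
        q.totient * classSum (1 : ZMod q) X →
      (X : ℝ) / (2 * q.totient * Real.log (2 * X)) ≤ #(classPrimes X q) := by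
    intro q hq0 hq _ h
    have h1 := mul_le_mul_of_nonneg_left (classSum_sub_le (q := q) (show 1 ≤ X by omega))
      (Nat.cast_nonneg q.totient)
    obtain ⟨h2, h3⟩ := hrem q hq
    have hφ0 : (0 : ℝ) < q.totient := Nat.cast_pos.2 (Nat.totient_pos.2 hq0)
    rw [div_le_iff₀ (mul_pos (by positivity) (Real.log_pos (by linarith)))]
    linarith
  have hlow : ∀ (q : ℕ) [NeZero q] (W : ℂ) (E : ℝ),
      ‖(((q.totient : ℕ) * classSum (1 : ZMod q) X : ℝ) : ℂ) - (X : ℝ) + W‖ ≤ E →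
        (X : ℝ) - ‖W‖ - E ≤ q.totient * classSum (1 : ZMod q) X := fun q _ W E hWE => by
    have h1 := (abs_le.1 ((abs_re_le_norm _).trans hWE)).1
    simp only [add_re, sub_re, ofReal_re] at h1
    linarith [(abs_le.1 (abs_re_le_norm W)).2]
  have hqQ : ∀ q : ℕ, (q : ℝ) ≤ (X : ℝ) ^ B → q ≤ Q := fun q hq => by exact_mod_cast hq.trans hQge
  rcases hgal Q hQ2 X X hQx hlx2 (div_le_self hX0.le (Nat.one_le_cast.2 (by omega))) le_rfl with
    hno | ⟨u₁, hu₁, hne1, -, β, -, -, hδQ, hex⟩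
  · refine ⟨2 * Q + 2, by omega, fun q hq0 hq _ => ?_⟩
    have : NeZero q := ⟨hq0.ne'⟩
    refine hfin q hq0 hq ?_
    have h1 := norm_classSum_sub_le (isUnit_one (M := ZMod q)) (hqQ q hq) hX1 (fun _ => 0)
    simp only [add_zero] at h1
    refine le_trans ?_ (hlow q 0 _ (by simpa using h1.trans (add_le_add hno le_rfl)))
    rw [norm_zero]
    have h2 := mul_le_mul_of_nonneg_right hdec hX0.le
    linarith
  · refine ⟨u₁.1, ?_, fun q hq0 hq hD => ?_⟩
    · by_contra hlt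
      obtain ⟨n, χ⟩ := u₁
      have hn := (mem_family.1 hu₁).1
      have hn1 : n = 1 := by
        have : n < 2 := not_le.1 hlt
        have : 1 ≤ n := hn
        omega
      subst hn1
      exact hne1 (DirichletCharacter.level_one χ)
    have : NeZero q := ⟨hq0.ne'⟩
    refine hfin q hq0 hq ?_
    have h1 := norm_classSum_sub_le (isUnit_one (M := ZMod q)) (hqQ q hq) hX1
      (fun u => if u = u₁ then (excG X X β : ℂ) else 0)
    have hW : ∑ χ : DirichletCharacter ℂ q, χ (1 : ZMod q)⁻¹ *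
        (if primOf χ = u₁ then (excG X X β : ℂ) else 0) = 0 := Finset.sum_eq_zero fun χ _ => by
      rw [if_neg fun h => hD ?_, mul_zero]
      rw [← h]
      exact χ.conductor_dvd_level
    refine le_trans ?_ (hlow q _ _ (h1.trans (add_le_add hex le_rfl)))
    rw [hW, norm_zero]
    have h2 := mul_le_mul hδQ (mul_le_mul_of_nonneg_right hdec hX0.le) (by positivity) zero_le_one
    linarith

/-- The primes `q` of `(Z, 2 Z]` with `q - 1` having no prime factor above `y`. -/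
def smoothPrimes (Z : ℕ) (y : ℝ) : Finset ℕ :=
  (Ioc Z (2 * Z)).filter fun q : ℕ => q.Prime ∧ ∀ r : ℕ, r.Prime → r ∣ q - 1 → (r : ℝ) ≤ y

/-- Few large prime factors. -/
theorem card_large_factors_le {m : ℕ} (hm : m ≠ 0) {w : ℝ} (hw : 1 ≤ w) {R : Finset ℕ}
    (hR : ∀ r ∈ R, r.Prime ∧ w ≤ r ∧ r ∣ m) : w ^ #R ≤ m := by
  refine le_trans ?_ (Nat.cast_le.2 (Nat.le_of_dvd (Nat.pos_of_ne_zero hm)
    (prod_primes_dvd m (fun r hr => (hR r hr).1.prime) fun r hr => (hR r hr).2.2)))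
  rw [Nat.cast_prod, ← prod_const]
  exact prod_le_prod (fun r _ => by linarith) fun r hr => (hR r hr).2.1

/-- **Many primes `q` with `q - 1` smooth.** -/
theorem exists_smoothPrimes_ge : ∃ E c : ℝ, 0 < E ∧ E ≤ 1 / 4 ∧ 0 < c ∧ ∀ᶠ Z : ℕ in atTop,
    c * Z / Real.log Z ≤ #(smoothPrimes Z ((Z : ℝ) ^ (1 - E))) := by
  obtain ⟨B, hB0, hB16, hB⟩ := exists_classPrimes_ge
  obtain ⟨Cm, hCm, hmert⟩ := Chen.exists_le_sum_prime_inv
  obtain ⟨kmax, hkmax⟩ : ∃ k : ℕ, k = ⌈3 / B⌉₊ := ⟨_, rfl⟩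
  refine ⟨B / 4, 1 / (16 * (kmax + 1)), by linarith, by linarith, by positivity, ?_⟩
  have h4 := ((tendsto_rpow_atTop (half_pos hB0)).comp
    (tendsto_natCast_atTop_atTop (R := ℝ))).eventually_ge_atTop (max 4 16)
  have hq4 := ((tendsto_rpow_atTop (show 0 < B / 4 by linarith)).comp
    (tendsto_natCast_atTop_atTop (R := ℝ))).eventually_ge_atTop (2 : ℝ)
  filter_upwards [hB, h4, hq4, BombieriVinogradov.eventually_log_ge (max 1 (32 * Cm / B)),
    eventually_ge_atTop 4] with Z hZ h4 hq4 hlZ hZ4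
  simp only [Function.comp_apply] at h4 hq4
  obtain ⟨D, hD, hZ⟩ := hZ
  have hl1 : 1 ≤ Real.log Z := le_of_max_le_left hlZ
  have hlC : 32 * Cm / B ≤ Real.log Z := le_of_max_le_right hlZ
  have hZ0 : (0 : ℝ) < Z := Nat.cast_pos.2 (by omega)
  have hZ1 : (1 : ℝ) < Z := Nat.one_lt_cast.2 (by omega)
  obtain ⟨a, ha⟩ : ∃ a : ℝ, a = (Z : ℝ) ^ (B / 2) := ⟨_, rfl⟩
  obtain ⟨b, hb⟩ : ∃ b : ℝ, b = (Z : ℝ) ^ B := ⟨_, rfl⟩
  rw [← ha] at h4
  have ha4 : 4 ≤ a := le_of_max_le_left h4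
  have hab : a ≤ b := ha ▸ hb ▸ Real.rpow_le_rpow_of_exponent_le hZ1.le (by linarith)
  obtain ⟨R, hR⟩ : ∃ R, R =
      ((range ⌈b⌉₊).filter fun r : ℕ => r.Prime ∧ a ≤ r ∧ ¬ r ∣ 1).filter (· ≠ D) := ⟨_, rfl⟩
  have hRmem : ∀ r ∈ R, r.Prime ∧ a ≤ r ∧ (r : ℝ) < b ∧ ¬ D ∣ r := fun r hr => by
    rw [hR, mem_filter, mem_filter, mem_range, Nat.lt_ceil] at hr
    refine ⟨hr.1.2.1, hr.1.2.2.1, hr.1.1, fun h => hr.2 ?_⟩
    rcases (Nat.dvd_prime hr.1.2.1).1 h with h1 | h1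
    · omega
    · exact h1.symm
  have hsum : 1 / 4 ≤ ∑ r ∈ R, (r : ℝ)⁻¹ := by
    have h := hmert 1 a b one_pos ha4 hab
    rw [Nat.cast_one, Real.log_one, zero_div, sub_zero, ha, hb, Real.log_rpow hZ0, Real.log_rpow hZ0,
      Real.log_mul hB0.ne' (by linarith), Real.log_mul (by linarith) (by linarith),
      Real.log_div hB0.ne' two_ne_zero] at h
    have h2 : Cm / (B / 2 * Real.log Z) ≤ 1 / 16 := by
      rw [div_le_iff₀ hB0] at hlC
      rw [div_le_iff₀ (by positivity)]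
      linarith
    rw [← ha, ← hb, ← sum_filter_add_sum_filter_not _ (· ≠ D), ← hR] at h
    have h3 : ∑ r ∈ ((range ⌈b⌉₊).filter fun r : ℕ => r.Prime ∧ a ≤ r ∧ ¬ r ∣ 1).filter
        (fun r => ¬ r ≠ D), (r : ℝ)⁻¹ ≤ 1 / 16 := by
      refine (sum_le_card_nsmul _ _ (1 / 16) fun r hr => ?_).trans ?_
      · rw [mem_filter, mem_filter] at hr
        rw [inv_eq_one_div]
        exact one_div_le_one_div_of_le (by norm_num) ((le_of_max_le_right h4).trans hr.1.2.2.1)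
      · rw [nsmul_eq_mul]
        refine mul_le_of_le_one_left (by norm_num) (Nat.cast_le_one.2 (card_le_one.2 fun u hu v hv => ?_))
        rw [mem_filter, not_not] at hu hv
        rw [hu.2, hv.2]
    linarith [Real.log_two_gt_d9]
  obtain ⟨S, hS⟩ : ∃ S, S = smoothPrimes Z ((Z : ℝ) ^ (1 - B / 4)) := ⟨_, rfl⟩
  rw [← hS]
  have hsub : ∀ r ∈ R, classPrimes Z r ⊆ S.filter (fun q => r ∣ q - 1) := fun r hr q hq => by
    obtain ⟨hrp, hra, hrb, -⟩ := hRmem r hr
    rw [classPrimes, mem_filter, mem_Ioc] at hq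
    obtain ⟨⟨hq1, hq2⟩, hqp, hqr⟩ := hq
    have hdvd : r ∣ q - 1 := (Nat.modEq_iff_dvd' hqp.one_le).1 hqr.symm
    refine mem_filter.2 ⟨hS ▸ mem_filter.2 ⟨mem_Ioc.2 ⟨hq1, hq2⟩, hqp, fun s hs hsd => ?_⟩, hdvd⟩
    have hb' : b ≤ (Z : ℝ) ^ (1 - B / 4) :=
      hb ▸ Real.rpow_le_rpow_of_exponent_le hZ1.le (by linarith)
    obtain ⟨m, hm⟩ := hdvd
    rw [hm] at hsd
    rcases hs.dvd_mul.1 hsd with h | h
    · rw [(Nat.prime_dvd_prime_iff_eq hs hrp).1 h]
      linarith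
    · have hm0 : m ≠ 0 := fun h0 => by
        rw [h0, mul_zero] at hm
        omega
      have h1 : (s : ℝ) * a ≤ 2 * Z := by
        refine le_trans (mul_le_mul (Nat.cast_le.2 (Nat.le_of_dvd (Nat.pos_of_ne_zero hm0) h)) hra
          (by linarith) (Nat.cast_nonneg m)) ?_
        rw [← Nat.cast_mul, mul_comm m r]
        exact_mod_cast (show r * m ≤ 2 * Z by omega)
      have e1 : (Z : ℝ) ^ (1 - B / 4) * a = (Z : ℝ) * (Z : ℝ) ^ (B / 4) := by
        rw [ha, ← Real.rpow_add hZ0]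
        conv_rhs => rw [← Real.rpow_one_add' hZ0.le (by linarith)]
        congr 1
        ring
      refine le_of_mul_le_mul_right (h1.trans ?_) (show (0 : ℝ) < a by linarith)
      rw [e1, mul_comm (2 : ℝ)]
      exact mul_le_mul_of_nonneg_left hq4 hZ0.le
  have hmult : ∀ q ∈ S, (#(R.filter fun r => r ∣ q - 1) : ℝ) ≤ kmax + 1 := fun q hq => by
    rw [hS, smoothPrimes, mem_filter, mem_Ioc] at hq
    have h1 := card_large_factors_le (R := R.filter fun r => r ∣ q - 1) (m := q - 1)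
      (show q - 1 ≠ 0 by have := hq.2.1.two_le; omega) (show (1 : ℝ) ≤ a by linarith)
      fun r hr => by
        rw [mem_filter] at hr
        exact ⟨(hRmem r hr.1).1, (hRmem r hr.1).2.1, hr.2⟩
    obtain ⟨k, hk⟩ : ∃ k, k = #(R.filter fun r => r ∣ q - 1) := ⟨_, rfl⟩
    rw [← hk] at h1 ⊢
    have h2 : a ^ k < (Z : ℝ) ^ (3 / 2 : ℝ) := by
      refine h1.trans_lt ((Nat.cast_lt.2 (show q - 1 < 2 * Z by omega)).trans_le ?_)
      rw [show (3 / 2 : ℝ) = 1 + 1 / 2 by norm_num, Real.rpow_add hZ0, Real.rpow_one, Nat.cast_mul,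
        Nat.cast_ofNat, mul_comm]
      refine mul_le_mul_of_nonneg_left ?_ hZ0.le
      rw [← Real.sqrt_eq_rpow]
      exact Real.le_sqrt_of_sq_le (by norm_num; exact_mod_cast hZ4)
    rw [ha, ← Real.rpow_natCast, ← Real.rpow_mul hZ0.le, Real.rpow_lt_rpow_left_iff hZ1] at h2
    have h3 : (k : ℝ) ≤ 3 / B := by
      rw [le_div_iff₀ hB0]
      linarith
    have h4' : (3 : ℝ) / B ≤ kmax := hkmax ▸ Nat.le_ceil _
    linarith
  have hcount : ∑ r ∈ R, (#(classPrimes Z r) : ℝ) ≤ #S * (kmax + 1 : ℝ) := by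
    refine (sum_le_sum fun r hr => Nat.cast_le.2 (card_le_card (hsub r hr))).trans ?_
    simp only [card_filter, Nat.cast_sum, Nat.cast_ite, Nat.cast_one, Nat.cast_zero]
    rw [sum_comm, ← nsmul_eq_mul]
    refine le_of_le_of_eq (sum_le_card_nsmul _ _ (kmax + 1 : ℝ) fun q hq => ?_) rfl
    refine le_of_eq_of_le ?_ (hmult q hq)
    rw [card_filter]
    push_cast
    rfl
  have hlow : (Z : ℝ) / (2 * Real.log (2 * Z)) * (1 / 4) ≤ ∑ r ∈ R, (#(classPrimes Z r) : ℝ) := by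
    refine (mul_le_mul_of_nonneg_left hsum (by
      have : 0 ≤ Real.log (2 * (Z : ℝ)) := Real.log_nonneg (by linarith)
      positivity)).trans ?_
    rw [mul_sum]
    refine sum_le_sum fun r hr => ?_
    obtain ⟨hrp, -, hrb, hrD⟩ := hRmem r hr
    refine le_trans ?_ (hZ r hrp.pos (by rw [← hb]; exact hrb.le) hrD)
    rw [← div_eq_mul_inv, div_div]
    refine div_le_div_of_nonneg_left hZ0.le ?_ ?_
    · exact mul_pos (mul_pos two_pos (Nat.cast_pos.2 (Nat.totient_pos.2 hrp.pos)))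
        (Real.log_pos (by linarith))
    · have := mul_le_mul_of_nonneg_right (Nat.cast_le.2 (Nat.totient_le r) : (r.totient : ℝ) ≤ r)
        (show 0 ≤ 2 * Real.log (2 * (Z : ℝ)) by
          have := Real.log_nonneg (show (1 : ℝ) ≤ 2 * Z by linarith)
          linarith)
      linarith
  have hl2 : Real.log (2 * (Z : ℝ)) ≤ 2 * Real.log Z := by
    rw [Real.log_mul two_ne_zero hZ0.ne']
    linarith [Real.log_two_lt_d9]
  have h5 : (Z : ℝ) / (16 * Real.log Z) ≤ (Z : ℝ) / (2 * Real.log (2 * Z)) * (1 / 4) := by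
    rw [div_mul_div_comm, mul_one]
    exact div_le_div_of_nonneg_left hZ0.le
      (mul_pos (mul_pos two_pos (Real.log_pos (by linarith))) (by norm_num)) (by linarith)
  have h6 := h5.trans (hlow.trans hcount)
  rw [div_le_iff₀ (by linarith)] at h6
  rw [div_mul_eq_mul_div, div_div, one_mul, div_le_iff₀ (by positivity)]
  linarith

end FA.CarmichaelNumbers
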