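import Fermat.Agent.Olson.Basic
import Mathlib.Data.Nat.Factorization.Induction
import Mathlib.Algebra.GCDMonoid.Finset
import Mathlib.Algebra.GCDMonoid.Nat

/-!
# Product-one subsequences when the exponent is smooth

In an abelian group generated by `k` elements of exponent `m`, every sequence of length
`∏_{r ^ e ‖ m} (k r ^ e + 1)` has a product-one part (by Olson's lemma, one prime power after the
other). Hence among the subsets with `≤ t` elements of `r` given elements at least `C (r, t) /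
(r + 2) ^ n` have product one, `n` this bound (Alford, Granville and Pomerance).
-/

set_option autoImplicit false

noncomputable section

namespace FA.CarmichaelNumbers

open Finset

/-- `∏_{r ^ e ‖ m} (k r ^ e + 1)`. -/
def zeroBound (k m : ℕ) : ℕ := ∏ r ∈ m.primeFactors, (k * r ^ m.factorization r + 1)

theorem zeroBound_pos (k m : ℕ) : 0 < zeroBound k m := prod_pos fun _ _ => Nat.succ_pos _

theorem zeroBound_mul (k : ℕ) {a b : ℕ} (h : a.Coprime b) :
    zeroBound k (a * b) = zeroBound k a * zeroBound k b := by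
  rw [zeroBound, h.primeFactors_mul, prod_union h.disjoint_primeFactors]
  refine congrArg₂ (· * ·) (prod_congr rfl fun r hr => ?_) (prod_congr rfl fun r hr => ?_)
  · rw [Nat.factorization_eq_of_coprime_left h ((Nat.mem_primeFactors_iff_mem_primeFactorsList).1 hr)]
  · rw [Nat.factorization_eq_of_coprime_right h ((Nat.mem_primeFactors_iff_mem_primeFactorsList).1 hr)]

variable {G : Type*} [CommGroup G] {κ : Type*} [Fintype κ]

/-- Every sequence in `closure (range b)` of length `n` has a product-one part. -/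
def HasZeroSum (b : κ → G) (n : ℕ) : Prop :=
  ∀ (g : ℕ → G) (s : Finset ℕ), (∀ j ∈ s, g j ∈ Subgroup.closure (Set.range b)) → n ≤ #s →
    ∃ t ⊆ s, t.Nonempty ∧ ∏ j ∈ t, g j = 1

/-- One prime power: Olson. -/
theorem hasZeroSum_primePow {p e : ℕ} (hp : p.Prime) (b : κ → G) (hb : ∀ i, b i ^ p ^ e = 1) :
    HasZeroSum b (Fintype.card κ * p ^ e + 1) := by
  intro g s hg hs
  have : Fact p.Prime := ⟨hp⟩
  obtain ⟨K, hK⟩ : ∃ K, K = Subgroup.closure (Set.range b) := ⟨_, rfl⟩
  obtain ⟨c, hc⟩ : ∃ c : κ → K, ∀ i, (c i : G) = b i :=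
    ⟨fun i => ⟨b i, hK ▸ Subgroup.subset_closure ⟨i, rfl⟩⟩, fun _ => rfl⟩
  have hgen : ∀ x : K, x ∈ Subgroup.closure (Set.range c) := fun x => by
    have h1 : (x : G) ∈ (Subgroup.closure (Set.range c)).map K.subtype := by
      rw [MonoidHom.map_closure, ← Set.range_comp, show K.subtype ∘ c = b from funext hc, ← hK]
      exact x.2
    obtain ⟨y, hy, hyx⟩ := Subgroup.mem_map.1 h1
    rwa [← Subtype.ext hyx]
  obtain ⟨t, ht, h1⟩ := Olson.exists_prod_eq_one (p := p) c (fun _ => e) hgen
    (fun i => Subtype.ext (by rw [SubmonoidClass.coe_pow, hc, hb, OneMemClass.coe_one]))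
    (fun j : s => (⟨g j, hK ▸ hg j j.2⟩ : K)) (by
      simp only [sum_const, card_univ, smul_eq_mul, Fintype.card_coe]
      refine lt_of_le_of_lt (Nat.mul_le_mul_left _ (Nat.sub_le _ 1)) (by omega))
  refine ⟨t.map (Function.Embedding.subtype _), fun j hj => ?_, ht.map, ?_⟩
  · obtain ⟨a, -, rfl⟩ := mem_map.1 hj
    exact a.2
  · have h2 := congrArg Subtype.val h1
    rw [SubmonoidClass.coe_finsetProd, OneMemClass.coe_one] at h2
    rw [prod_map]
    exact h2

/-- Disjoint parts, each in the kernel of `x ↦ x ^ b`. -/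
theorem exists_disjoint_parts {P : Finset ℕ → Prop} {A : ℕ}
    (h : ∀ s : Finset ℕ, A ≤ #s → ∃ t ⊆ s, t.Nonempty ∧ #t ≤ A ∧ P t) :
    ∀ (c : ℕ) (s : Finset ℕ), A * c ≤ #s → ∃ T : ℕ → Finset ℕ, (∀ i < c, T i ⊆ s ∧ (T i).Nonempty ∧ P (T i)) ∧
      ∀ i < c, ∀ i' < c, i ≠ i' → Disjoint (T i) (T i') := by
  intro c
  induction c with
  | zero =>
    exact fun s _ => ⟨fun _ => ∅, fun i hi => absurd hi (Nat.not_lt_zero i),
      fun i hi => absurd hi (Nat.not_lt_zero i)⟩
  | succ c ih =>
    intro s hs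
    rw [Nat.mul_succ] at hs
    obtain ⟨t, ht, hne, hcard, hP⟩ := h s (by omega)
    obtain ⟨T, hT, hdisj⟩ := ih (s \ t) (by rw [card_sdiff_of_subset ht]; omega)
    refine ⟨fun i => if i = c then t else T i, fun i hi => ?_, fun i hi i' hi' hne' => ?_⟩ <;> dsimp only
    · rcases eq_or_ne i c with h1 | h1
      · rw [if_pos h1]
        exact ⟨ht, hne, hP⟩
      · rw [if_neg h1]
        exact ⟨(hT i (by omega)).1.trans sdiff_subset, (hT i (by omega)).2⟩
    · rcases eq_or_ne i c with h1 | h1
      · rw [if_pos h1, if_neg fun h2 => hne' (h1.trans h2.symm)]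
        exact disjoint_of_subset_right (hT i' (by omega)).1 disjoint_sdiff
      · rw [if_neg h1]
        rcases eq_or_ne i' c with h2 | h2
        · rw [if_pos h2]
          exact disjoint_of_subset_left (hT i (by omega)).1 sdiff_disjoint
        · rw [if_neg h2]
          exact hdisj i (by omega) i' (by omega) hne'

/-- **The bound.** -/
theorem hasZeroSum_zeroBound : ∀ m : ℕ, 0 < m → ∀ b : κ → G, (∀ i, b i ^ m = 1) →
    HasZeroSum b (zeroBound (Fintype.card κ) m) := by
  intro m
  induction m using Nat.recOnPrimeCoprime with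
  | zero => exact fun h => absurd h (lt_irrefl 0)
  | prime_pow p n hp =>
    intro _ b hb g s hg hs
    rcases Nat.eq_zero_or_pos n with rfl | hn
    · obtain ⟨j, hj⟩ := card_pos.1 ((zeroBound_pos _ _).trans_le hs)
      refine ⟨{j}, singleton_subset_iff.2 hj, singleton_nonempty j, ?_⟩
      have hbot : Subgroup.closure (Set.range b) ≤ ⊥ := (Subgroup.closure_le _).2 fun x ⟨i, hi⟩ => by
        rw [SetLike.mem_coe, Subgroup.mem_bot, ← hi]
        simpa using hb i
      rw [prod_singleton, Subgroup.mem_bot.1 (hbot (hg j hj))]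
    · refine hasZeroSum_primePow hp b hb g s hg ?_
      refine le_of_eq_of_le ?_ hs
      rw [zeroBound, Nat.primeFactors_prime_pow hn.ne' hp, prod_singleton, hp.factorization_pow,
        Finsupp.single_eq_same]
  | coprime u v hu hv huv iu iv =>
    intro _ b hb g s hg hs
    rw [zeroBound_mul _ huv] at hs
    have hu0 : 0 < u := by omega
    have hv0 : 0 < v := by omega
    -- parts whose product dies under `x ↦ x ^ v`
    obtain ⟨T, hT, hdisj⟩ := exists_disjoint_parts (A := zeroBound (Fintype.card κ) u)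
      (P := fun t => (∀ j ∈ t, j ∈ s) → (∏ j ∈ t, g j) ^ v = 1) (fun s' hs' => by
        obtain ⟨s₀, hs₀, hcard⟩ := exists_subset_card_eq hs'
        by_cases hall : ∀ j ∈ s₀, j ∈ s
        · obtain ⟨t, ht, hne, h1⟩ := iu hu0 (fun i => b i ^ v)
            (fun i => by rw [← pow_mul, mul_comm, hb]) (fun j => g j ^ v) s₀ (fun j hj => by
              have h2 := Subgroup.mem_map_of_mem (powMonoidHom v) (hg j (hall j hj))
              rwa [MonoidHom.map_closure, ← Set.range_comp] at h2) hcard.ge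
          refine ⟨t, ht.trans hs₀, hne, (card_le_card ht).trans hcard.le, fun _ => ?_⟩
          rw [← prod_pow, h1]
        · refine ⟨s₀, hs₀, card_pos.1 (hcard ▸ zeroBound_pos _ _), hcard.le, fun h => absurd h hall⟩)
      (zeroBound (Fintype.card κ) v) s hs
    obtain ⟨y, hy⟩ : ∃ y : ℕ → G, y = fun i => ∏ j ∈ T i, g j := ⟨_, rfl⟩
    have hyv : ∀ i ∈ range (zeroBound (Fintype.card κ) v), y i ∈
        Subgroup.closure (Set.range fun i => b i ^ u) := fun i hi => by
      have h := hT i (mem_range.1 hi)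
      have hcl : y i ∈ Subgroup.closure (Set.range b) := by
        rw [hy]
        exact prod_mem fun j hj => hg j (h.1 hj)
      have h1 : y i ^ v = 1 := hy ▸ h.2.2 fun j hj => h.1 hj
      have h2 : y i ^ u ∈ Subgroup.closure (Set.range fun i => b i ^ u) := by
        have h2 := Subgroup.mem_map_of_mem (powMonoidHom u) hcl
        rwa [MonoidHom.map_closure, ← Set.range_comp] at h2
      have hbez : y i = (y i ^ u) ^ Nat.gcdA u v * (y i ^ v) ^ Nat.gcdB u v := by
        rw [← zpow_natCast, ← zpow_natCast, ← zpow_mul, ← zpow_mul, ← zpow_add, ← Nat.gcd_eq_gcd_ab,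
          huv.gcd_eq_one, Nat.cast_one, zpow_one]
      rw [hbez, h1, one_zpow, mul_one]
      exact Subgroup.zpow_mem _ h2 _
    obtain ⟨W, hW, hWne, hW1⟩ := iv hv0 (fun i => b i ^ u) (fun i => by rw [← pow_mul, hb])
      y (range (zeroBound (Fintype.card κ) v)) hyv (card_range _).ge
    refine ⟨W.biUnion T, biUnion_subset.2 fun i hi => (hT i (mem_range.1 (hW hi))).1, ?_, ?_⟩
    · obtain ⟨i, hi⟩ := hWne
      exact (hT i (mem_range.1 (hW hi))).2.1.mono (subset_biUnion_of_mem T hi)
    · rw [prod_biUnion fun i hi i' hi' h =>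
        hdisj i (mem_range.1 (hW hi)) i' (mem_range.1 (hW hi')) h]
      rw [hy] at hW1
      exact hW1

/-- Few small subsets. -/
theorem card_small_subsets_le (T : Finset ℕ) :
    ∀ n : ℕ, #((range n).biUnion fun i => T.powersetCard i) ≤ (#T + 2) ^ n := by
  intro n
  induction n with
  | zero => simp
  | succ n ih =>
    rw [range_add_one, biUnion_insert, pow_succ]
    refine (card_union_le _ _).trans ?_
    rw [card_powersetCard]
    have h1 : (#T).choose n ≤ (#T + 2) ^ n * (#T + 1) :=
      (Nat.choose_le_pow _ _).trans ((Nat.pow_le_pow_left (Nat.le_add_right _ 2) n).trans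
        (Nat.le_mul_of_pos_right _ (Nat.succ_pos _)))
    rw [show #T + 2 = (#T + 1) + 1 from rfl] at h1 ih ⊢
    rw [Nat.mul_succ]
    omega

/-- **Many product-one subsets.** -/
theorem choose_le_card_prod_one {g : ℕ → G} {b : κ → G} {n : ℕ} (hz : HasZeroSum b n)
    {T : Finset ℕ} (hT : ∀ j ∈ T, g j ∈ Subgroup.closure (Set.range b)) [DecidableEq G] (t : ℕ) :
    (#T).choose t ≤
      #(T.powerset.filter fun S => #S ≤ t ∧ t ≤ #S + n ∧ ∏ j ∈ S, g j = 1) * (#T + 2) ^ n := by
  classical
  obtain ⟨Good, hGood⟩ : ∃ Good, Good =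
      T.powerset.filter fun S => #S ≤ t ∧ t ≤ #S + n ∧ ∏ j ∈ S, g j = 1 := ⟨_, rfl⟩
  rw [← hGood, ← card_powersetCard]
  refine (card_le_card (t := (Good ×ˢ (range n).biUnion fun i => T.powersetCard i).image
    fun u => u.1 ∪ u.2) fun U hU => ?_).trans (card_image_le.trans ?_)
  · rw [mem_powersetCard] at hU
    obtain ⟨S, hS, hmax⟩ := exists_max_image (U.powerset.filter fun S => ∏ j ∈ S, g j = 1) card
      ⟨∅, mem_filter.2 ⟨empty_mem_powerset U, by simp⟩⟩
    rw [mem_filter, mem_powerset] at hS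
    have hrest : #(U \ S) < n := by
      by_contra h
      obtain ⟨W, hW, hWne, hW1⟩ := hz g (U \ S) (fun j hj => hT j (hU.1 (mem_sdiff.1 hj).1))
        (not_lt.1 h)
      have hd : Disjoint S W := disjoint_of_subset_right hW disjoint_sdiff
      have h2 := hmax (S ∪ W) (mem_filter.2 ⟨mem_powerset.2 (union_subset hS.1 (hW.trans sdiff_subset)),
        by rw [prod_union hd, hS.2, hW1, one_mul]⟩)
      have h3 := card_union_of_disjoint hd
      have h4 := card_pos.2 hWne
      omega
    refine mem_image.2 ⟨(S, U \ S), mem_product.2 ⟨?_, ?_⟩, union_sdiff_of_subset hS.1⟩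
    · rw [hGood, mem_filter, mem_powerset]
      have h1 := card_sdiff_of_subset hS.1
      have h2 := card_le_card hS.1
      dsimp only
      exact ⟨hS.1.trans hU.1, by omega, by omega, hS.2⟩
    · exact mem_biUnion.2 ⟨#(U \ S), mem_range.2 hrest,
        mem_powersetCard.2 ⟨sdiff_subset.trans hU.1, rfl⟩⟩
  · rw [card_product]
    exact Nat.mul_le_mul_left _ (card_small_subsets_le T n)

omit [Fintype κ] in
/-- A prime power dividing an `lcm` divides one of the members. -/
theorem exists_dvd_of_dvd_lcm {r e : ℕ} (hr : r.Prime) (he : 0 < e) (f : κ → ℕ) {s : Finset κ}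
    (hf : ∀ i ∈ s, f i ≠ 0) (h : r ^ e ∣ s.lcm f) : ∃ i ∈ s, r ^ e ∣ f i := by
  classical
  induction s using Finset.induction_on with
  | empty =>
    rw [lcm_empty, Nat.dvd_one, Nat.pow_eq_one] at h
    rcases h with h | h
    · exact absurd h hr.ne_one
    · omega
  | @insert a s ha ih =>
    rw [lcm_insert] at h
    have h0 : s.lcm f ≠ 0 := fun h0 => by
      obtain ⟨i, hi, hi0⟩ := (Finset.lcm_eq_zero_iff).1 h0
      exact hf i (mem_insert_of_mem hi) hi0
    have hlcm := Nat.lcm_ne_zero (hf a (mem_insert_self a s)) h0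
    have h2 : e ≤ (Nat.lcm (f a) (s.lcm f)).factorization r :=
      (hr.pow_dvd_iff_le_factorization hlcm).1 h
    rw [Nat.factorization_lcm (hf a (mem_insert_self a s)) h0, Finsupp.sup_apply, le_max_iff] at h2
    rcases h2 with h2 | h2
    · exact ⟨a, mem_insert_self a s,
        (hr.pow_dvd_iff_le_factorization (hf a (mem_insert_self a s))).2 h2⟩
    · obtain ⟨i, hi, h3⟩ := ih (fun i hi => hf i (mem_insert_of_mem hi))
        ((hr.pow_dvd_iff_le_factorization h0).2 h2)
      exact ⟨i, mem_insert_of_mem hi, h3⟩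

theorem zeroBound_lcm_le (f : κ → ℕ) (hf : ∀ i, f i ≠ 0) {k A B : ℕ} (hA : ∀ i, f i ≤ A)
    (hB : ∀ (i : κ) (r : ℕ), r.Prime → r ∣ f i → r ≤ B) :
    zeroBound k (univ.lcm f) ≤ (k * A + 1) ^ B := by
  refine (prod_le_prod (fun _ _ => Nat.zero_le _) fun r hr => ?_).trans
    (le_of_eq_of_le (prod_const _) (Nat.pow_le_pow_right (Nat.succ_pos _) ?_))
  · have hrp := Nat.prime_of_mem_primeFactors hr
    refine Nat.add_le_add_right (Nat.mul_le_mul_left k ?_) 1
    rcases Nat.eq_zero_or_pos ((univ.lcm f).factorization r) with h0 | h0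
    · obtain ⟨i, -, h⟩ := exists_dvd_of_dvd_lcm hrp one_pos f (fun i _ => hf i)
        (s := univ) (by rw [pow_one]; exact Nat.dvd_of_mem_primeFactors hr)
      rw [h0, pow_zero]
      exact (Nat.pos_of_ne_zero (hf i)).trans_le (hA i)
    · obtain ⟨i, -, h⟩ := exists_dvd_of_dvd_lcm hrp h0 f (fun i _ => hf i)
        (s := univ) (Nat.ordProj_dvd _ r)
      exact (Nat.le_of_dvd (Nat.pos_of_ne_zero (hf i)) h).trans (hA i)
  · refine le_of_le_of_eq (card_le_card (t := Icc 1 B) fun r hr => ?_) (Nat.card_Icc 1 B)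
    have hrp := Nat.prime_of_mem_primeFactors hr
    obtain ⟨i, -, h⟩ := exists_dvd_of_dvd_lcm hrp one_pos f (fun i _ => hf i)
      (s := univ) (by rw [pow_one]; exact Nat.dvd_of_mem_primeFactors hr)
    rw [pow_one] at h
    exact mem_Icc.2 ⟨hrp.one_le, hB i r hrp h⟩

end FA.CarmichaelNumbers
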